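import Mathlib.FieldTheory.IsAlgClosed.Classification
import Mathlib.Analysis.Complex.Polynomial.Basic
import Mathlib.FieldTheory.AlgebraicClosure
import Mathlib.FieldTheory.Galois.Infinite

set_option autoImplicit false
noncomputable section
namespace FLTAgent.IntegralStructure
open MvPolynomial

theorem exists_ringEquiv_extend {K ι : Type} [Field K] [Algebra K ℂ] {v : ι → ℂ}
    (hv : IsTranscendenceBasis K v) (e : MvPolynomial ι K ≃+* MvPolynomial ι K) :
    ∃ σ : ℂ ≃+* ℂ, ∀ p, σ (aeval v p) = aeval v (e p) := by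
  let := IsAlgClosed.isAlgClosure_of_transcendence_basis v hv
  let A := Algebra.adjoin K (Set.range v)
  let a : MvPolynomial ι K ≃+* A := hv.1.aevalEquiv.toRingEquiv
  let E : A ≃+* A := (a.symm.trans e).trans a
  refine ⟨IsAlgClosure.equivOfEquiv ℂ ℂ E, fun p => ?_⟩
  have := IsAlgClosure.equivOfEquiv_algebraMap ℂ ℂ E (a p)
  have h2 : E (a p) = a (e p) := by simp [E]
  rw [h2] at this
  exact this

theorem exists_ringEquiv_ne {x : ℂ} (hx : ∀ r : ℚ, (r : ℂ) ≠ x) :
    ∃ σ : ℂ ≃+* ℂ, σ x ≠ x := by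
  by_cases h : IsAlgebraic ℚ x
  · let K := algebraicClosure ℚ ℂ
    have hxK : x ∈ K := (mem_algebraicClosure_iff).2 h
    have : IsAlgClosure ℚ K := algebraicClosure.isAlgClosure ℚ ℂ
    have : IsGalois ℚ K := ⟨⟩
    have hnot : (⟨x, hxK⟩ : K) ∉ (⊥ : IntermediateField ℚ K) := by
      rw [IntermediateField.mem_bot]
      rintro ⟨r, hr⟩
      exact hx r (by simpa using congrArg (fun y : K => (y : ℂ)) hr)
    rw [InfiniteGalois.mem_bot_iff_fixed] at hnot
    push Not at hnot
    obtain ⟨s, hs⟩ := hnot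
    obtain ⟨B, hB⟩ := exists_isTranscendenceBasis' K ℂ
    obtain ⟨v, hv⟩ := hB
    obtain ⟨σ, hσ⟩ := exists_ringEquiv_extend hv (MvPolynomial.mapEquiv B (s : K ≃+* K))
    refine ⟨σ, fun hfix => hs ?_⟩
    have := hσ (C ⟨x, hxK⟩)
    simp at this
    exact Subtype.ext (this.symm.trans hfix)
  · have hind : AlgebraicIndepOn ℚ id ({x} : Set ℂ) := by
      simpa [algebraicIndependent_unique_type_iff, Transcendental] using h
    obtain ⟨B, hxB, hB⟩ := exists_isTranscendenceBasis_superset hind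
    classical
    let i : B := ⟨x, hxB rfl⟩
    let e : MvPolynomial B ℚ ≃ₐ[ℚ] MvPolynomial B ℚ :=
      AlgEquiv.ofAlgHom (aeval fun j => X j + if j = i then 1 else 0)
        (aeval fun j => X j - if j = i then 1 else 0)
        (by apply MvPolynomial.algHom_ext; intro j; by_cases hj : j = i <;> simp [hj])
        (by apply MvPolynomial.algHom_ext; intro j; by_cases hj : j = i <;> simp [hj])
    obtain ⟨σ, hσ⟩ := exists_ringEquiv_extend hB e.toRingEquiv
    refine ⟨σ, fun hfix => ?_⟩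
    have := hσ (X i)
    simp [e] at this
    simp [i] at this
    rw [hfix] at this
    simp at this

theorem eq_ratCast_of_forall_ringEquiv {x : ℂ} (hx : ∀ σ : ℂ ≃+* ℂ, σ x = x) :
    ∃ r : ℚ, (r : ℂ) = x := by
  by_contra h
  push Not at h
  obtain ⟨σ, hσ⟩ := exists_ringEquiv_ne h
  exact hσ (hx σ)

end FLTAgent.IntegralStructure
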