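import Mathlib.RingTheory.PowerSeries.NoZeroDivisors
import Mathlib.RingTheory.PowerSeries.Inverse
import Mathlib.LinearAlgebra.Span.Basic
import Mathlib.Analysis.Complex.Polynomial.Basic
import Fermat.Agent.IntegralStructure.FixedField

set_option autoImplicit false
noncomputable section
namespace FLTAgent.IntegralStructure
open PowerSeries

/-- vectors with rational coordinates in a Galois stable subspace span it -/
theorem span_rational_of_conj_stable {ι : Type*} [Fintype ι] (W : Submodule ℂ (ι → ℂ))
    (hW : ∀ σ : ℂ ≃+* ℂ, ∀ w ∈ W, (fun i => σ (w i)) ∈ W) :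
    Submodule.span ℂ {w | w ∈ W ∧ ∀ i, ∃ r : ℚ, (r : ℂ) = w i} = W := by
  classical
  let supp : (ι → ℂ) → Finset ι := fun w => Finset.univ.filter fun i => w i ≠ 0
  let R := Submodule.span ℂ {w | w ∈ W ∧ ∀ i, ∃ r : ℚ, (r : ℂ) = w i}
  refine le_antisymm (Submodule.span_le.2 fun w hw => hw.1) ?_
  suffices h : ∀ n : ℕ, ∀ w ∈ W, (supp w).card = n → w ∈ R from fun w hw => h _ w hw rfl
  intro n
  induction n using Nat.strong_induction_on with
  | _ n ih =>
    intro w hw hn
    by_cases h0 : w = 0
    · simp [h0]
    -- a vector of minimal support inside the support of w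
    let T := {m : ℕ | ∃ v ∈ W, v ≠ 0 ∧ supp v ⊆ supp w ∧ (supp v).card = m}
    have hT : ∃ m, m ∈ T := ⟨_, w, hw, h0, subset_refl _, rfl⟩
    obtain ⟨v, hvW, hv0, hvs, hvc⟩ := Nat.find_spec hT
    obtain ⟨i, hi⟩ : ∃ i, v i ≠ 0 := by
      by_contra h
      push Not at h
      exact hv0 (funext h)
    let v' := (v i)⁻¹ • v
    have hv'i : v' i = 1 := by simp [v', hi]
    have hv'W : v' ∈ W := W.smul_mem _ hvW
    have hv's : supp v' ⊆ supp v := by
      intro j; simp [supp, v', hi]
    have hrat : ∀ j, ∃ r : ℚ, (r : ℂ) = v' j := by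
      intro j
      refine eq_ratCast_of_forall_ringEquiv fun σ => ?_
      let u : ι → ℂ := (fun l => σ (v' l)) - v'
      have huW : u ∈ W := W.sub_mem (hW σ v' hv'W) hv'W
      have hu : supp u ⊆ (supp v).erase i := by
        intro l hl
        have hl' : u l ≠ 0 := by simpa [supp] using hl
        refine Finset.mem_erase.2 ⟨?_, hv's ?_⟩
        · rintro rfl; simp [u, hv'i] at hl'
        · simp only [supp, Finset.mem_filter, Finset.mem_univ, true_and]
          intro hz; simp [u, hz] at hl'
      by_contra hne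
      have hu0 : u ≠ 0 := fun h => hne (sub_eq_zero.1 (congrFun h j))
      have hlt : (supp u).card < (supp v).card := by
        refine (Finset.card_le_card hu).trans_lt (Finset.card_lt_card (Finset.erase_ssubset ?_))
        simp [supp, hi]
      refine Nat.find_min hT (hvc ▸ hlt) ⟨u, huW, hu0, ?_, rfl⟩
      exact hu.trans ((Finset.erase_subset _ _).trans hvs)
    have hv'R : v' ∈ R := Submodule.subset_span ⟨hv'W, hrat⟩
    have hlt : (supp (w - w i • v')).card < n := by
      rw [← hn]
      refine (Finset.card_le_card (t := (supp w).erase i) ?_).trans_lt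
        (Finset.card_lt_card (Finset.erase_ssubset ?_))
      · intro l hl
        have hl' : w l - w i * v' l ≠ 0 := by simpa [supp] using hl
        refine Finset.mem_erase.2 ⟨?_, ?_⟩
        · rintro rfl; simp [hv'i] at hl'
        · by_contra hlw
          have h1 : v' l = 0 := by
            by_contra h
            exact hlw (hvs (hv's (by simpa [supp] using h)))
          have h2 : w l = 0 := by simpa [supp] using hlw
          simp [h1, h2] at hl'
      · exact hvs (by simpa [supp] using hi)
    have := R.add_mem (ih _ hlt _ (W.sub_mem hw (W.smul_mem _ hv'W)) rfl)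
      (R.smul_mem (w i) hv'R)
    simpa using this

/-- power series with integer coefficients -/
def intSeries : Subring (PowerSeries ℂ) := (PowerSeries.map (Int.castRingHom ℂ)).range

theorem mem_intSeries {f : PowerSeries ℂ} :
    f ∈ intSeries ↔ ∀ n, ∃ m : ℤ, f.coeff n = m := by
  constructor
  · rintro ⟨g, rfl⟩ n
    exact ⟨g.coeff n, by simp⟩
  · intro h
    choose m hm using h
    exact ⟨PowerSeries.mk m, by ext n; simp [hm]⟩

theorem X_mem_intSeries : (X : PowerSeries ℂ) ∈ intSeries := ⟨X, by simp⟩

theorem C_intCast_mem_intSeries (m : ℤ) : C (m : ℂ) ∈ intSeries := ⟨C m, by simp⟩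

theorem coeff_eq_of_order_intSeries {e : PowerSeries ℂ} {o : ℕ}
    (he : ∀ l < o, e.coeff l = 0) (h : PowerSeries ℂ) :
    (e * h).coeff o = e.coeff o * h.coeff 0 := by
  rw [PowerSeries.coeff_mul, Finset.sum_eq_single (o, 0)]
  · rintro ⟨a, b⟩ hab hne
    rw [Finset.HasAntidiagonal.mem_antidiagonal] at hab
    have : a < o := by
      rcases eq_or_ne b 0 with rfl | hb
      · exact absurd (by simp_all) hne
      · simp at hab; omega
    simp [he a this]
  · simp

/-- `Z[[q]]` is integrally closed among rational series (almost integral version) -/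
theorem mem_intSeries_of_forall_pow {e g : PowerSeries ℂ} (he : e ∈ intSeries) (he0 : e ≠ 0)
    (hg : ∀ n, ∃ r : ℚ, g.coeff n = r) (h : ∀ m : ℕ, e * g ^ m ∈ intSeries) :
    g ∈ intSeries := by
  classical
  rw [mem_intSeries]
  intro n
  induction n using Nat.strong_induction_on generalizing g with
  | _ n ih =>
    -- the constant coefficient is integral
    have hne : ∃ o, e.coeff o ≠ 0 := by
      by_contra hh; push Not at hh; exact he0 (PowerSeries.ext (by simpa using hh))
    let o := Nat.find hne
    obtain ⟨a, ha⟩ := mem_intSeries.1 he o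
    obtain ⟨r, hr⟩ := hg 0
    have hm : ∀ m : ℕ, ∃ b : ℤ, (a : ℚ) * r ^ m = b := by
      intro m
      obtain ⟨b, hb⟩ := mem_intSeries.1 (h m) o
      refine ⟨b, ?_⟩
      rw [coeff_eq_of_order_intSeries (fun l hl => by simpa using Nat.find_min hne hl)] at hb
      rw [ha, PowerSeries.coeff_zero_eq_constantCoeff_apply, map_pow,
        ← PowerSeries.coeff_zero_eq_constantCoeff_apply, hr] at hb
      exact_mod_cast hb
    have ha0 : a ≠ 0 := fun hh => Nat.find_spec hne (by simp [o] at ha; simp [ha, hh])
    have hden : r.den = 1 := by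
      have hdvd : ∀ m : ℕ, r.den ^ m ∣ a.natAbs := by
        intro m
        obtain ⟨b, hb⟩ := hm m
        have hb' : a * r.num ^ m = b * (r.den : ℤ) ^ m := by
          have hd : ((r.den : ℚ)) ^ m ≠ 0 := pow_ne_zero _ (by exact_mod_cast r.den_nz)
          have : (a : ℚ) * (r.num : ℚ) ^ m = b * (r.den : ℚ) ^ m := by
            rw [← hb, mul_assoc, ← mul_pow, Rat.mul_den_eq_num]
          exact_mod_cast this
        have : (r.den : ℕ) ^ m ∣ a.natAbs * r.num.natAbs ^ m := by
          have := congrArg Int.natAbs hb'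
          rw [Int.natAbs_mul, Int.natAbs_pow, Int.natAbs_mul, Int.natAbs_pow, Int.natAbs_natCast] at this
          exact this ▸ dvd_mul_left _ _
        exact (Nat.Coprime.pow m m r.reduced.symm).dvd_of_dvd_mul_right this
      by_contra hne1
      have hlt : a.natAbs < r.den ^ a.natAbs :=
        Nat.lt_pow_self (by have := r.den_pos; omega)
      exact absurd (Nat.le_of_dvd (Int.natAbs_pos.2 ha0) (hdvd a.natAbs)) (not_le.2 hlt)
    have hc : g.coeff 0 = (r.num : ℂ) := by
      rw [hr]; conv_lhs => rw [← Rat.num_div_den r, hden]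
      simp
    rcases n with _ | n
    · exact ⟨r.num, hc⟩
    -- shift
    let g' : PowerSeries ℂ := PowerSeries.mk fun l => g.coeff (l + 1)
    have hg' : g = C (r.num : ℂ) + X * g' := by
      rw [add_comm, ← hc, PowerSeries.coeff_zero_eq_constantCoeff_apply]
      exact g.eq_X_mul_shift_add_const
    have hX : ∀ m, e * (X * g') ^ m ∈ intSeries := by
      intro m
      have he' : X * g' = g - C (r.num : ℂ) := by rw [hg']; ring
      rw [he', sub_eq_add_neg, add_pow, Finset.mul_sum]
      refine intSeries.sum_mem fun l _ => ?_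
      have : e * (g ^ l * (-C (r.num : ℂ)) ^ (m - l) * (m.choose l : PowerSeries ℂ)) =
          (e * g ^ l) * ((-C (r.num : ℂ)) ^ (m - l) * (m.choose l : PowerSeries ℂ)) := by ring
      rw [this]
      exact intSeries.mul_mem (h l) (intSeries.mul_mem
        (intSeries.pow_mem (intSeries.neg_mem (C_intCast_mem_intSeries _)) _)
        (natCast_mem intSeries _))
    have := ih n (Nat.lt_succ_self n) (g := g') (fun l => ?_) (fun m => ?_)
    · simpa [g'] using this
    · simpa [g'] using hg (l + 1)
    · rw [mem_intSeries]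
      intro l
      obtain ⟨b, hb⟩ := mem_intSeries.1 (hX m) (l + m)
      refine ⟨b, ?_⟩
      rw [mul_pow, mul_comm (X ^ m), ← mul_assoc, PowerSeries.coeff_mul_X_pow] at hb
      exact hb

theorem mem_intSeries_of_monic {e g : PowerSeries ℂ} {n : ℕ} {c : ℕ → PowerSeries ℂ}
    (hc : ∀ i, c i ∈ intSeries) (heq : g ^ n = ∑ i ∈ Finset.range n, c i * g ^ i)
    (he : e ∈ intSeries) (he0 : e ≠ 0) (heg : e * g ∈ intSeries)
    (hg : ∀ m, ∃ r : ℚ, g.coeff m = r) : g ∈ intSeries := by
  refine mem_intSeries_of_forall_pow (e := e ^ n) (intSeries.pow_mem he n) (pow_ne_zero n he0) hg ?_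
  intro m
  induction m using Nat.strong_induction_on with
  | _ m ih =>
    rcases le_or_gt m n with hmn | hmn
    · obtain ⟨l, rfl⟩ := Nat.exists_eq_add_of_le hmn
      rw [pow_add, show e ^ m * e ^ l * g ^ m = (e * g) ^ m * e ^ l by ring]
      exact intSeries.mul_mem (intSeries.pow_mem heg _) (intSeries.pow_mem he _)
    · obtain ⟨l, rfl⟩ := Nat.exists_eq_add_of_lt hmn
      have : g ^ (n + l + 1) = ∑ i ∈ Finset.range n, c i * g ^ (i + l + 1) := by
        rw [show n + l + 1 = n + (l + 1) by ring, pow_add, heq, Finset.sum_mul]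
        refine Finset.sum_congr rfl fun i _ => ?_
        rw [mul_assoc, ← pow_add, add_assoc]
      rw [this, Finset.mul_sum]
      refine intSeries.sum_mem fun i hi => ?_
      rw [mul_left_comm]
      exact intSeries.mul_mem (hc i) (ih _ (by have := Finset.mem_range.1 hi; omega))

end FLTAgent.IntegralStructure
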