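import Mathlib.NumberTheory.ModularForms.LevelOne.GradedRing
import Fermat.Agent.IntegralStructure.Algebra

set_option autoImplicit false
noncomputable section
namespace FLTAgent.IntegralStructure
open UpperHalfPlane ModularForm MatrixGroups EisensteinSeries

theorem qExpansion_E₄_mem : qExpansion 1 E₄ ∈ intSeries := by
  rw [mem_intSeries]
  intro m
  refine ⟨if m = 0 then 1 else 240 * (ArithmeticFunction.sigma 3 m : ℕ), ?_⟩
  rw [E_qExpansion_coeff (by norm_num) ⟨2, rfl⟩]
  rw [show bernoulli 4 = -1 / 30 by decide +kernel]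
  split_ifs <;> push_cast <;> norm_num

theorem qExpansion_E₆_mem : qExpansion 1 E₆ ∈ intSeries := by
  rw [mem_intSeries]
  intro m
  refine ⟨if m = 0 then 1 else -504 * (ArithmeticFunction.sigma 5 m : ℕ), ?_⟩
  rw [E_qExpansion_coeff (by norm_num) ⟨3, rfl⟩]
  rw [show bernoulli 6 = 1 / 42 by decide +kernel]
  split_ifs <;> push_cast <;> norm_num

/-- `1728 Δ` as a level one modular form -/
def delta1728 : ModularForm 𝒮ℒ 12 :=
  ModularForm.mcast (by norm_num) (E₄.pow 3) - ModularForm.mcast (by norm_num) (E₆.pow 2)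

theorem coe_delta1728 : (delta1728 : ℍ → ℂ) = fun z => 1728 * discriminant z := by
  funext z
  rw [discriminant_eq_E₄_cube_sub_E₆_sq, delta1728, ModularForm.sub_apply, coe_mcast, coe_mcast,
    coe_pow, coe_pow, Pi.pow_apply, Pi.pow_apply]
  ring

theorem qExpansion_delta1728_mem : qExpansion 1 delta1728 ∈ intSeries := by
  rw [delta1728, FunLike.coe_sub, ModularForm.qExpansion_sub one_pos one_mem_strictPeriods_SL,
    coe_mcast, coe_mcast, ModularForm.qExpansion_pow one_pos one_mem_strictPeriods_SL,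
    ModularForm.qExpansion_pow one_pos one_mem_strictPeriods_SL]
  exact intSeries.sub_mem (intSeries.pow_mem qExpansion_E₄_mem _)
    (intSeries.pow_mem qExpansion_E₆_mem _)

theorem exists_monomial {l : ℕ} (hl : Even l) (h4 : 4 ≤ l) :
    ∃ g : ModularForm 𝒮ℒ (l : ℤ), qExpansion 1 g ∈ intSeries ∧ (qExpansion 1 g).coeff 0 = 1 := by
  obtain ⟨a, b, hab⟩ : ∃ a b, l = 4 * a + 6 * b := by
    obtain ⟨r, rfl⟩ := hl
    rcases Nat.even_or_odd r with ⟨s, rfl⟩ | ⟨s, rfl⟩
    · exact ⟨s, 0, by omega⟩
    · exact ⟨s - 1, 1, by omega⟩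
  refine ⟨ModularForm.mcast (by rw [hab]; push_cast; ring) ((E₄.pow a).mul (E₆.pow b)), ?_, ?_⟩
  all_goals rw [ModularForm.qExpansion_mcast (heq := by rw [hab]; push_cast; ring) (hΓ := rfl),
    ModularForm.qExpansion_mul one_pos one_mem_strictPeriods_SL,
    ModularForm.qExpansion_pow one_pos one_mem_strictPeriods_SL,
    ModularForm.qExpansion_pow one_pos one_mem_strictPeriods_SL]
  · exact intSeries.mul_mem (intSeries.pow_mem qExpansion_E₄_mem _)
      (intSeries.pow_mem qExpansion_E₆_mem _)
  · simp only [PowerSeries.coeff_zero_eq_constantCoeff_apply, map_mul, map_pow]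
    rw [← PowerSeries.coeff_zero_eq_constantCoeff_apply,
      ← PowerSeries.coeff_zero_eq_constantCoeff_apply,
      E_qExpansion_coeff_zero (by norm_num) ⟨2, rfl⟩,
      E_qExpansion_coeff_zero (by norm_num) ⟨3, rfl⟩]
    simp

theorem levelOne_span_int (l : ℤ) :
    Submodule.span ℂ {g : ModularForm 𝒮ℒ l | qExpansion 1 g ∈ intSeries} = ⊤ := by
  refine eq_top_iff.2 fun f _ => ?_
  suffices h : ∀ n : ℕ, ∀ l : ℤ, l ≤ n → ∀ f : ModularForm 𝒮ℒ l,
      f ∈ Submodule.span ℂ {g : ModularForm 𝒮ℒ l | qExpansion 1 g ∈ intSeries} from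
    h l.toNat l (Int.self_le_toNat l) f
  intro n
  induction n using Nat.strong_induction_on with
  | _ n ih =>
    intro l hl f
    rcases lt_trichotomy l 0 with hneg | rfl | hpos
    · have : f = 0 := DFunLike.coe_injective (ModularFormClass.levelOne_neg_weight_eq_zero hneg f)
      simp [this]
    · obtain ⟨c, hc⟩ := ModularFormClass.levelOne_weight_zero_const f
      have : f = c • (1 : ModularForm 𝒮ℒ 0) := by
        ext z; simp [hc]
      rw [this]
      refine Submodule.smul_mem _ _ (Submodule.subset_span ?_)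
      show qExpansion 1 (1 : ModularForm 𝒮ℒ 0) ∈ intSeries
      rw [ModularForm.qExpansion_one]
      exact intSeries.one_mem
    obtain ⟨l, rfl⟩ := Int.eq_ofNat_of_zero_le hpos.le
    rcases Nat.even_or_odd l with hev | hodd
    · rcases lt_or_ge l 4 with h4 | h4
      · obtain rfl : l = 2 := by obtain ⟨r, rfl⟩ := hev; omega
        have := levelOne_weight_two_rank_zero
        rw [rank_zero_iff_forall_zero] at this
        simp [this f]
      obtain ⟨m, hm, hm0⟩ := exists_monomial hev h4
      let a := (qExpansion 1 f).coeff 0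
      have hcusp : (qExpansion 1 ((f - a • m : ModularForm 𝒮ℒ (l : ℤ)) : ℍ → ℂ)).coeff 0 = 0 := by
        rw [FunLike.coe_sub, ModularForm.qExpansion_sub one_pos one_mem_strictPeriods_SL,
          ModularForm.IsGLPos.coe_smul, ModularForm.qExpansion_smul one_pos one_mem_strictPeriods_SL]
        simp [a, hm0, -PowerSeries.coeff_zero_eq_constantCoeff]
      let c := toCuspForm (f - a • m) hcusp
      let g := CuspForm.discriminantEquiv c
      have hg : g ∈ Submodule.span ℂ
          {g : ModularForm 𝒮ℒ ((l : ℤ) - 12) | qExpansion 1 g ∈ intSeries} := by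
        by_cases hneg : (l : ℤ) - 12 < 0
        · have : g = 0 := DFunLike.coe_injective
            (ModularFormClass.levelOne_neg_weight_eq_zero hneg g)
          simp [this]
        · exact ih (n - 12) (by omega) _ (by omega) g
      let M : ModularForm 𝒮ℒ ((l : ℤ) - 12) →ₗ[ℂ] ModularForm 𝒮ℒ (l : ℤ) :=
        { toFun := fun g => ModularForm.mcast (by ring) (delta1728.mul g)
          map_add' := fun g g' => by ext z; simp [mul_add]
          map_smul' := fun t g => by ext z; simp; ring }
      have hM : f = a • m + (1728 : ℂ)⁻¹ • M g := by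
        ext z
        have h1 : discriminant z * g z = f z - a * m z := by
          rw [discriminant_mul_discriminantEquiv_apply]
          rfl
        simp [M, coe_delta1728]
        linear_combination -h1
      rw [hM]
      refine Submodule.add_mem _ (Submodule.smul_mem _ _ (Submodule.subset_span hm))
        (Submodule.smul_mem _ _ ?_)
      have h2 := Submodule.mem_map_of_mem (f := M) hg
      rw [Submodule.map_span] at h2
      refine Submodule.span_mono ?_ h2
      rintro _ ⟨x, hx, rfl⟩
      show qExpansion 1 (M x) ∈ intSeries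
      simp only [M, LinearMap.coe_mk, AddHom.coe_mk]
      rw [ModularForm.qExpansion_mcast (heq := by ring) (hΓ := rfl),
        ModularForm.qExpansion_mul one_pos one_mem_strictPeriods_SL]
      exact intSeries.mul_mem qExpansion_delta1728_mem hx
    · have := ModularForm.levelOne_odd_weight_eq_zero (k := (l : ℤ))
        (by exact_mod_cast hodd) f
      simp [this]

theorem exists_levelOne_mapCoeff {l : ℤ} (f : ModularForm 𝒮ℒ l) (φ : ℂ →+ ℂ) :
    ∃ g : ModularForm 𝒮ℒ l, ∀ n, (qExpansion 1 g).coeff n = φ ((qExpansion 1 f).coeff n) := by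
  have hf : f ∈ Submodule.span ℂ {g : ModularForm 𝒮ℒ l | qExpansion 1 g ∈ intSeries} := by
    simp [levelOne_span_int]
  revert φ
  induction hf using Submodule.span_induction with
  | mem x hx =>
    intro φ
    refine ⟨φ 1 • x, fun n => ?_⟩
    obtain ⟨m, hm⟩ := mem_intSeries.1 hx n
    rw [ModularForm.IsGLPos.coe_smul, ModularForm.qExpansion_smul one_pos one_mem_strictPeriods_SL]
    simp only [PowerSeries.coeff_smul, smul_eq_mul, hm]
    rw [show (m : ℂ) = m • (1 : ℂ) by simp, map_zsmul]
    simp [mul_comm]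
  | zero => intro φ; exact ⟨0, fun n => by simp [qExpansion_zero]⟩
  | add x y _ _ hx hy =>
    intro φ
    obtain ⟨g, hg⟩ := hx φ
    obtain ⟨g', hg'⟩ := hy φ
    refine ⟨g + g', fun n => ?_⟩
    simp [ModularForm.qExpansion_add one_pos one_mem_strictPeriods_SL, hg, hg']
  | smul a x _ hx =>
    intro φ
    obtain ⟨g, hg⟩ := hx (φ.comp (AddMonoidHom.mulLeft a))
    refine ⟨g, fun n => ?_⟩
    rw [hg, ModularForm.IsGLPos.coe_smul,
      ModularForm.qExpansion_smul one_pos one_mem_strictPeriods_SL]
    simp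

theorem exists_levelOne_denominator {l : ℤ} (f : ModularForm 𝒮ℒ l) (φ : ℂ →+ ℚ) :
    ∃ D : ℕ, 0 < D ∧ ∀ n, ∃ m : ℤ, (D : ℚ) * φ ((qExpansion 1 f).coeff n) = m := by
  have hf : f ∈ Submodule.span ℂ {g : ModularForm 𝒮ℒ l | qExpansion 1 g ∈ intSeries} := by
    simp [levelOne_span_int]
  revert φ
  induction hf using Submodule.span_induction with
  | mem x hx =>
    intro φ
    refine ⟨(φ 1).den, (φ 1).den_pos, fun n => ?_⟩
    obtain ⟨m, hm⟩ := mem_intSeries.1 hx n
    refine ⟨m * (φ 1).num, ?_⟩
    rw [hm, show (m : ℂ) = m • (1 : ℂ) by simp, map_zsmul, zsmul_eq_mul]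
    push_cast
    rw [← Rat.den_mul_eq_num]; ring
  | zero => intro φ; exact ⟨1, one_pos, fun n => ⟨0, by simp [qExpansion_zero]⟩⟩
  | add x y _ _ hx hy =>
    intro φ
    obtain ⟨D, hD, h⟩ := hx φ
    obtain ⟨D', hD', h'⟩ := hy φ
    refine ⟨D * D', Nat.mul_pos hD hD', fun n => ?_⟩
    obtain ⟨m, hm⟩ := h n
    obtain ⟨m', hm'⟩ := h' n
    refine ⟨D' * m + D * m', ?_⟩
    simp only [FunLike.coe_add, ModularForm.qExpansion_add one_pos one_mem_strictPeriods_SL,
      map_add]
    push_cast
    rw [← hm, ← hm']; ring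
  | smul a x _ hx =>
    intro φ
    obtain ⟨D, hD, h⟩ := hx (φ.comp (AddMonoidHom.mulLeft a))
    refine ⟨D, hD, fun n => ?_⟩
    obtain ⟨m, hm⟩ := h n
    refine ⟨m, ?_⟩
    rw [← hm, ModularForm.IsGLPos.coe_smul,
      ModularForm.qExpansion_smul one_pos one_mem_strictPeriods_SL]
    simp

end FLTAgent.IntegralStructure
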