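import Mathlib.NumberTheory.ModularForms.QExpansion
import Mathlib.NumberTheory.ModularForms.CongruenceSubgroups

set_option autoImplicit false
noncomputable section
namespace FLTAgent.IntegralStructure
open UpperHalfPlane Function
open scoped Manifold

/-- holomorphic functions of period one bounded at infinity -/
def qFn : Subalgebra ℂ (ℍ → ℂ) where
  carrier := {f | Periodic (f ∘ ofComplex) 1 ∧ MDiff f ∧ IsBoundedAtImInfty f}
  mul_mem' := fun {f g} hf hg =>
    ⟨hf.1.mul hg.1, hf.2.1.mul hg.2.1, hf.2.2.mul hg.2.2⟩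
  add_mem' := fun {f g} hf hg =>
    ⟨hf.1.add hg.1, hf.2.1.add hg.2.1, hf.2.2.add hg.2.2⟩
  algebraMap_mem' c :=
    ⟨fun _ => rfl, mdifferentiable_const, Filter.const_boundedAtFilter atImInfty c⟩

theorem analyticAt_of_mem_qFn {f : ℍ → ℂ} (hf : f ∈ qFn) :
    AnalyticAt ℂ (cuspFunction 1 f) 0 :=
  analyticAt_cuspFunction_zero one_pos (by exact_mod_cast hf.1) hf.2.1 hf.2.2

/-- the q-expansion as an algebra map -/
def qHom : qFn →ₐ[ℂ] PowerSeries ℂ where
  toFun f := qExpansion 1 (f : ℍ → ℂ)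
  map_one' := qExpansion_one 1
  map_mul' f g := qExpansion_mul (analyticAt_of_mem_qFn f.2) (analyticAt_of_mem_qFn g.2)
  map_zero' := qExpansion_zero 1
  map_add' f g := qExpansion_add (analyticAt_of_mem_qFn f.2) (analyticAt_of_mem_qFn g.2)
  commutes' c := by
    show qExpansion 1 (algebraMap ℂ (ℍ → ℂ) c) = algebraMap ℂ (PowerSeries ℂ) c
    rw [Algebra.algebraMap_eq_smul_one, Algebra.algebraMap_eq_smul_one,
      qExpansion_smul (analyticAt_of_mem_qFn qFn.one_mem), qExpansion_one]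

theorem qHom_apply (f : qFn) : qHom f = qExpansion 1 (f : ℍ → ℂ) := rfl

theorem qHom_injective : Injective qHom := by
  intro f g h
  have : qHom (f - g) = 0 := by rw [map_sub, h, sub_self]
  rw [qHom_apply, qExpansion_eq_zero_iff one_pos (by exact_mod_cast (f - g).2.1) (f - g).2.2.1
    (f - g).2.2.2] at this
  exact sub_eq_zero.1 (Subtype.ext this)

theorem modularForm_mem_qFn {Γ : Subgroup (GL (Fin 2) ℝ)} {k : ℤ} {F : Type*} [FunLike F ℍ ℂ]
    [ModularFormClass F Γ k] (f : F) (h : (1 : ℝ) ∈ Γ.strictPeriods) : (f : ℍ → ℂ) ∈ qFn := by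
  have : Fact (IsCusp OnePoint.infty Γ) := ⟨Γ.isCusp_of_mem_strictPeriods one_pos h⟩
  exact ⟨by exact_mod_cast SlashInvariantFormClass.periodic_comp_ofComplex f h,
    ModularFormClass.holo f, ModularFormClass.bdd_at_infty f⟩

end FLTAgent.IntegralStructure
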