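import Mathlib.NumberTheory.ModularForms.CongruenceSubgroups
import Fermat.Prelude.Def_ModularForm_HeckeOperator
import Fermat.Agent.IntegralStructure.QFn
import Fermat.Agent.IntegralStructure.LevelOne

set_option autoImplicit false
noncomputable section
namespace FLTAgent.IntegralStructure
open UpperHalfPlane ModularForm MatrixGroups CongruenceSubgroup Filter Function
open scoped Manifold Topology Real

/-- `1728 Δ(N z)` -/
def uN (N : ℕ) : ℍ → ℂ := fun τ => delta1728 (heckeDiagMatrix N • τ)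

variable {N : ℕ} [NeZero N]

theorem denom_SL (g : SL(2, ℤ)) (z : ℂ) : denom g z = (g 1 0 : ℂ) * z + g 1 1 := by
  simp [denom]

theorem delta1728_smul (γ : SL(2, ℤ)) (τ : ℍ) :
    delta1728 (γ • τ) = denom γ τ ^ (12 : ℤ) * delta1728 τ := by
  have h := congrFun (delta1728.slash_action_eq' (γ : GL (Fin 2) ℝ) ⟨γ, rfl⟩) τ
  change ((delta1728 : ℍ → ℂ) ∣[(12 : ℤ)] γ) τ = delta1728 τ at h
  rw [ModularForm.SL_slash_apply] at h
  conv_rhs => rw [← h]
  rw [zpow_neg]
  field_simp [zpow_ne_zero _ (denom_ne_zero (γ : GL (Fin 2) ℝ) τ)]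

/-- Hermite normal form: the conjugates of `Δ(N z)` -/
theorem uN_slash_exists (g : SL(2, ℤ)) :
    ∃ A D : ℕ, ∃ B : ℤ, 0 < D ∧ A * D = N ∧ (D = 1 → g ∈ Gamma0 N) ∧
      ∀ τ : ℍ, ∃ w : ℍ, (w : ℂ) = ((A : ℂ) * τ + B) / D ∧
        (uN N ∣[(12 : ℤ)] g) τ = ((D : ℂ) ^ (12 : ℤ))⁻¹ * delta1728 w := by
  have hN : (N : ℤ) ≠ 0 := by exact_mod_cast NeZero.ne N
  set a := g 0 0 with ha
  set b := g 0 1 with hb
  set c := g 1 0 with hc
  set d := g 1 1 with hd
  have hdet : a * d - b * c = 1 := by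
    have := g.2; rw [Matrix.det_fin_two] at this; exact this
  have hne : (N : ℤ) * a ≠ 0 ∨ c ≠ 0 := by
    by_contra h; push Not at h
    rcases mul_eq_zero.1 h.1 with h1 | h1
    · exact hN h1
    · rw [h1, h.2] at hdet; simp at hdet
  set A := Int.gcd ((N : ℤ) * a) c with hA
  have hApos : 0 < A := by
    rcases hne with h | h
    · exact Int.gcd_pos_of_ne_zero_left _ h
    · exact Int.gcd_pos_of_ne_zero_right _ h
  obtain ⟨x, z, hcop, hx, hz⟩ := Int.exists_gcd_one hApos
  have hbez := Int.gcd_eq_gcd_ab x z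
  rw [hcop] at hbez
  push_cast at hbez
  set w₀ := Int.gcdA x z
  set y := -Int.gcdB x z with hy
  have hxw : x * w₀ - z * y = 1 := by rw [hy]; linarith
  set B := w₀ * ((N : ℤ) * b) - y * d with hB
  set D₀ := -z * ((N : ℤ) * b) + x * d with hD
  have h1 : x * B + y * D₀ = (N : ℤ) * b := by
    rw [hB, hD]; linear_combination ((N : ℤ) * b) * hxw
  have h2 : z * B + w₀ * D₀ = d := by
    rw [hB, hD]; linear_combination d * hxw
  have hAD : (A : ℤ) * D₀ = N := by
    rw [hD]
    linear_combination (-d) * hx + ((N : ℤ) * b) * hz + (N : ℤ) * hdet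
  have hDpos : 0 < D₀ := by
    have h0 : (0 : ℤ) < (A : ℤ) * D₀ := by rw [hAD]; exact_mod_cast NeZero.pos N
    exact pos_of_mul_pos_right h0 (by positivity)
  obtain ⟨D, hDn⟩ := Int.eq_ofNat_of_zero_le hDpos.le
  have hDp : 0 < D := by omega
  refine ⟨A, D, B, hDp, by exact_mod_cast (hDn ▸ hAD), ?_, fun τ => ?_⟩
  · intro hD1
    rw [Gamma0_mem, ← hc, ZMod.intCast_zmod_eq_zero_iff_dvd]
    rw [hDn, hD1] at hAD
    exact ⟨z, by rw [hz, ← hA, ← hAD]; push_cast; ring⟩
  have hDC : (D : ℂ) ≠ 0 := by exact_mod_cast hDp.ne'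
  have him : 0 < (((A : ℂ) * τ + B) / D).im := by
    have hD' : (0 : ℝ) < D := by exact_mod_cast hDp
    simp only [Complex.div_natCast_im, Complex.add_im, Complex.mul_im, Complex.natCast_re,
      Complex.natCast_im, Complex.intCast_im, zero_mul, add_zero]
    have := τ.im_pos
    have hA' : (0 : ℝ) < A := by exact_mod_cast hApos
    positivity
  refine ⟨⟨_, him⟩, rfl, ?_⟩
  set w : ℍ := ⟨_, him⟩
  let γ : SL(2, ℤ) := ⟨!![x, y; z, w₀], by rw [Matrix.det_fin_two_of]; linarith⟩
  have hcd : denom γ w * D = denom g τ := by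
    have e1 : denom γ w = (z : ℂ) * (w : ℂ) + w₀ := by
      rw [denom_SL]; simp [γ]
    have e2 : denom g τ = (c : ℂ) * τ + d := by rw [denom_SL, ← hc, ← hd]
    have e3 : (w : ℂ) = ((A : ℂ) * τ + B) / D := rfl
    rw [e1, e2, e3]
    field_simp
    have h2' : (z : ℂ) * B + w₀ * D = d := by exact_mod_cast (hDn ▸ h2)
    have hz' : (c : ℂ) = z * A := by exact_mod_cast hz
    linear_combination h2' - (τ : ℂ) * hz'
  have hmove : heckeDiagMatrix N • (g • τ) = γ • w := by
    apply UpperHalfPlane.ext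
    rw [coe_heckeDiagMatrix_smul (NeZero.ne N), coe_specialLinearGroup_apply,
      coe_specialLinearGroup_apply]
    have hden : (c : ℂ) * τ + d ≠ 0 := by
      have := denom_ne_zero (g : GL (Fin 2) ℝ) τ
      simpa [denom, hc, hd] using this
    have e3 : (w : ℂ) = ((A : ℂ) * τ + B) / D := rfl
    have h1' : (x : ℂ) * B + y * D = N * b := by exact_mod_cast (hDn ▸ h1)
    have h2' : (z : ℂ) * B + w₀ * D = d := by exact_mod_cast (hDn ▸ h2)
    have hz' : (c : ℂ) = z * A := by exact_mod_cast hz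
    have hx' : (N : ℂ) * a = x * A := by exact_mod_cast hx
    simp only [algebraMap_int_eq, Int.coe_castRingHom, ← ha, ← hb, ← hc, ← hd, e3, γ,
      Matrix.of_apply, Matrix.cons_val', Matrix.cons_val_zero, Matrix.cons_val_one,
      Matrix.empty_val', Matrix.cons_val_fin_one, Complex.ofReal_intCast]
    have hden2 : (z : ℂ) * (((A : ℂ) * τ + B) / D) + w₀ ≠ 0 := by
      intro h0
      apply hden
      field_simp at h0
      linear_combination h0 + (τ : ℂ) * hz' - h2'
    rw [mul_div_assoc', div_eq_div_iff hden hden2]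
    field_simp
    linear_combination ((z : ℂ) * ((A : ℂ) * τ + B) + w₀ * D) * ((τ : ℂ) * hx' - h1') +
      ((x : ℂ) * ((A : ℂ) * τ + B) + y * D) * (h2' - (τ : ℂ) * hz')
  rw [ModularForm.SL_slash_apply, uN, hmove, delta1728_smul, ← hcd, mul_zpow]
  rw [zpow_neg, zpow_neg]
  field_simp [zpow_ne_zero _ (denom_ne_zero (γ : GL (Fin 2) ℝ) w)]

theorem uN_slash_eq (g : SL(2, ℤ)) (hg : g ∈ Gamma0 N) : uN N ∣[(12 : ℤ)] g = uN N := by
  obtain ⟨k, hk⟩ : (N : ℤ) ∣ g 1 0 := (ZMod.intCast_zmod_eq_zero_iff_dvd _ _).1 (Gamma0_mem.1 hg)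
  let γ : SL(2, ℤ) := ⟨!![g 0 0, (N : ℤ) * g 0 1; k, g 1 1], by
    have := g.2; rw [Matrix.det_fin_two] at this
    rw [Matrix.det_fin_two_of]; rw [hk] at this; linarith⟩
  funext τ
  have hN : (N : ℂ) ≠ 0 := by exact_mod_cast NeZero.ne N
  have hk' : (g 1 0 : ℂ) = N * k := by exact_mod_cast hk
  have hcd : denom γ ((heckeDiagMatrix N • τ : ℍ) : ℂ) = denom g τ := by
    rw [denom_SL, denom_SL, coe_heckeDiagMatrix_smul (NeZero.ne N), hk']
    simp [γ]
    ring
  have hmove : heckeDiagMatrix N • (g • τ) = γ • (heckeDiagMatrix N • τ) := by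
    apply UpperHalfPlane.ext
    rw [coe_heckeDiagMatrix_smul (NeZero.ne N), coe_specialLinearGroup_apply,
      coe_specialLinearGroup_apply, coe_heckeDiagMatrix_smul (NeZero.ne N)]
    simp only [algebraMap_int_eq, Int.coe_castRingHom, γ, Complex.ofReal_intCast,
      Matrix.of_apply, Matrix.cons_val', Matrix.cons_val_zero, Matrix.cons_val_one,
      Matrix.empty_val', Matrix.cons_val_fin_one]
    rw [hk']
    push_cast
    rw [mul_div_assoc']
    congr 1 <;> ring
  rw [ModularForm.SL_slash_apply, uN, hmove, delta1728_smul, hcd, zpow_neg]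
  field_simp [zpow_ne_zero _ (denom_ne_zero (g : GL (Fin 2) ℝ) τ)]
  rfl

theorem mdifferentiable_uN : MDiff (uN N) := by
  have h : uN N = ((N : ℂ) ^ (11 : ℤ))⁻¹ • ((delta1728 : ℍ → ℂ) ∣[(12 : ℤ)] heckeDiagMatrix N) := by
    funext τ
    rw [Pi.smul_apply, slash_heckeDiagMatrix_apply _ (NeZero.ne N), smul_eq_mul,
      show (12 : ℤ) - 1 = 11 by norm_num, ← mul_assoc, inv_mul_cancel₀, one_mul]
    · rfl
    · exact zpow_ne_zero _ (by exact_mod_cast NeZero.ne N)
  rw [h]
  exact ((ModularFormClass.holo delta1728).slash _ _).const_smul _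

theorem mdifferentiable_uN_slash (g : SL(2, ℤ)) : MDiff (uN N ∣[(12 : ℤ)] g) :=
  mdifferentiable_uN.slash _ _

theorem bounded_uN_slash (g : SL(2, ℤ)) : IsBoundedAtImInfty (uN N ∣[(12 : ℤ)] g) := by
  obtain ⟨A, D, B, hD, hAD, -, h⟩ := uN_slash_exists (N := N) g
  have hb : IsBoundedAtImInfty (delta1728 : ℍ → ℂ) := ModularFormClass.bdd_at_infty delta1728
  rw [UpperHalfPlane.isBoundedAtImInfty_iff] at hb ⊢
  obtain ⟨C, M, hM⟩ := hb
  refine ⟨‖((D : ℂ) ^ (12 : ℤ))⁻¹‖ * C, max M 0 * D, fun τ hτ => ?_⟩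
  obtain ⟨w, hw, heq⟩ := h τ
  rw [heq, norm_mul]
  refine mul_le_mul_of_nonneg_left (hM w ?_) (norm_nonneg _)
  have hA : (1 : ℝ) ≤ A := by
    have : A ≠ 0 := by rintro rfl; simp at hAD; exact NeZero.ne N hAD.symm
    exact_mod_cast Nat.one_le_iff_ne_zero.2 this
  have : w.im = A * τ.im / D := by
    show (w : ℂ).im = _
    rw [hw]; simp [Complex.div_natCast_im]
  rw [this, le_div_iff₀ (by exact_mod_cast hD)]
  have h1 : max M 0 * D ≤ τ.im := hτ
  have h2 : M * D ≤ max M 0 * D := mul_le_mul_of_nonneg_right (le_max_left _ _) (by positivity)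
  nlinarith [τ.im_pos]

theorem uN_mem_qFn : uN N ∈ qFn := by
  refine ⟨?_, mdifferentiable_uN, by simpa using bounded_uN_slash (N := N) (1 : SL(2, ℤ))⟩
  have hT : ModularGroup.T ∈ Gamma0 N := by
    rw [Gamma0_mem]; simp [ModularGroup.coe_T]
  have hinv : ∀ τ : ℍ, uN N ((1 : ℝ) +ᵥ τ) = uN N τ := by
    intro τ
    have := congrFun (uN_slash_eq _ hT) τ
    rw [ModularForm.SL_slash_apply, modular_T_smul] at this
    rw [denom_SL] at this
    simpa [ModularGroup.coe_T] using this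
  intro z
  by_cases hz : 0 < z.im
  · have hz' : 0 < (z + 1).im := by simpa using hz
    simp only [Function.comp_apply]
    rw [ofComplex_apply_of_im_pos hz, ofComplex_apply_of_im_pos hz']
    convert hinv ⟨z, hz⟩ using 2
    apply UpperHalfPlane.ext
    simp [add_comm]
  · simp only [not_lt] at hz
    simp [ofComplex_apply_of_im_nonpos hz,
      ofComplex_apply_of_im_nonpos (show (z + 1).im ≤ 0 by simpa using hz)]

theorem qExpansion_uN_mem : qExpansion 1 (uN N) ∈ intSeries := by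
  rw [mem_intSeries]
  intro n
  let c : ℕ → ℂ := fun m => if N ∣ m then (qExpansion 1 delta1728).coeff (m / N) else 0
  have hsum : ∀ τ : ℍ, HasSum (fun m => c m • Periodic.qParam 1 τ ^ m) (uN N τ) := by
    intro τ
    have h := ModularForm.hasSum_qExpansion delta1728 one_pos one_mem_strictPeriods_SL
      (heckeDiagMatrix N • τ)
    have hinj : Function.Injective (fun m : ℕ => N * m) :=
      fun a b h => Nat.eq_of_mul_eq_mul_left (NeZero.pos N) h
    rw [← hinj.hasSum_iff]
    · change HasSum _ (delta1728 (heckeDiagMatrix N • τ))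
      convert h using 1
      funext m
      simp only [Function.comp_apply, c, dvd_mul_right, if_true,
        Nat.mul_div_cancel_left _ (NeZero.pos N), smul_eq_mul]
      congr 1
      rw [pow_mul, coe_heckeDiagMatrix_smul (NeZero.ne N), Periodic.qParam, Periodic.qParam,
        ← Complex.exp_nat_mul]
      congr 2
      push_cast; ring
    · intro m hm
      have : ¬ N ∣ m := fun ⟨l, hl⟩ => hm ⟨l, hl.symm⟩
      simp [c, this]
  have huniq := UpperHalfPlane.qExpansion_coeff_unique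
    (⟨uN N, mdifferentiable_uN.continuous⟩ : C(ℍ, ℂ)) one_pos
    (analyticAt_of_mem_qFn uN_mem_qFn) hsum n
  simp only [ContinuousMap.coe_mk] at huniq
  rw [← huniq]
  simp only [c]
  split_ifs
  · exact mem_intSeries.1 qExpansion_delta1728_mem _
  · exact ⟨0, by simp⟩

theorem mem_Gamma0_of_uN_slash_eq (g : SL(2, ℤ)) (hg : uN N ∣[(12 : ℤ)] g = uN N) :
    g ∈ Gamma0 N := by
  obtain ⟨A, D, B, hD, hAD, hmem, h⟩ := uN_slash_exists (N := N) g
  refine hmem ?_
  by_contra hD1
  have hD2 : 2 ≤ D := by omega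
  have hA : 0 < A := by
    rcases Nat.eq_zero_or_pos A with rfl | hA
    · simp at hAD; exact absurd hAD.symm (NeZero.ne N)
    · exact hA
  let P : ℍ → ℂ := fun x => ∏' n, (1 - ModularForm.eta_q n x) ^ 24
  have hP : Tendsto P atImInfty (𝓝 1) := tendsto_atImInfty_tprod_one_sub_eta_q_pow
  have hΔ : ∀ x : ℍ, ‖delta1728 x‖ = 1728 * (Real.exp (-2 * π * x.im) * ‖P x‖) := by
    intro x
    rw [coe_delta1728, norm_mul, discriminant_eq_q_prod, norm_mul]
    congr 2
    · simp
    · simp [Periodic.qParam, Complex.norm_exp]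
  choose w hw heq using h
  have hwim : ∀ τ : ℍ, (w τ).im = A * τ.im / D := fun τ => by
    show (w τ : ℂ).im = _
    rw [hw]; simp [Complex.div_natCast_im]
  have htw : Tendsto w atImInfty atImInfty := by
    rw [atImInfty, tendsto_comap_iff]
    have : (UpperHalfPlane.im ∘ w) = fun τ : ℍ => (A : ℝ) * τ.im / D := funext hwim
    rw [this]
    exact (tendsto_comap.const_mul_atTop (by exact_mod_cast hA)).atTop_div_const
      (by exact_mod_cast hD)
  have htN : Tendsto (fun τ : ℍ => heckeDiagMatrix N • τ) atImInfty atImInfty := by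
    rw [atImInfty, tendsto_comap_iff]
    have : (UpperHalfPlane.im ∘ fun τ : ℍ => heckeDiagMatrix N • τ) = fun τ => (N : ℝ) * τ.im := by
      funext τ
      show ((heckeDiagMatrix N • τ : ℍ) : ℂ).im = _
      rw [coe_heckeDiagMatrix_smul (NeZero.ne N)]; simp
    rw [this]
    exact tendsto_comap.const_mul_atTop (by exact_mod_cast NeZero.pos N)
  let e : ℝ := (N : ℝ) - A / D
  have he : 0 < e := by
    have h1 : (A : ℝ) * D = N := by exact_mod_cast hAD
    have h2 : (1 : ℝ) < D := by exact_mod_cast hD2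
    have h3 : (0 : ℝ) < A := by exact_mod_cast hA
    have h4 : (A : ℝ) / D < A := div_lt_self h3 h2
    have h5 : (A : ℝ) ≤ A * D := le_mul_of_one_le_right h3.le h2.le
    simp only [e]; linarith
  have hexp : Tendsto (fun τ : ℍ => Real.exp (2 * π * e * τ.im) * ‖P (w τ)‖) atImInfty atTop :=
    (Real.tendsto_exp_atTop.comp (tendsto_comap.const_mul_atTop (by positivity))).atTop_mul_pos
      one_pos (by simpa using (hP.comp htw).norm)
  have hlim : Tendsto (fun τ : ℍ => (D : ℝ) ^ 12 * ‖P (heckeDiagMatrix N • τ)‖) atImInfty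
      (𝓝 ((D : ℝ) ^ 12 * 1)) :=
    Tendsto.const_mul _ (by simpa using (hP.comp htN).norm)
  have : (fun τ : ℍ => Real.exp (2 * π * e * τ.im) * ‖P (w τ)‖) =
      fun τ : ℍ => (D : ℝ) ^ 12 * ‖P (heckeDiagMatrix N • τ)‖ := by
    funext τ
    have h0 := congrArg norm (congrFun hg τ)
    rw [heq τ, uN, norm_mul, hΔ, hΔ, hwim] at h0
    have hn : ((heckeDiagMatrix N • τ : ℍ).im : ℝ) = N * τ.im := by
      show ((heckeDiagMatrix N • τ : ℍ) : ℂ).im = _
      rw [coe_heckeDiagMatrix_smul (NeZero.ne N)]; simp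
    rw [hn, norm_inv, norm_zpow, Complex.norm_natCast] at h0
    rw [show 2 * π * e * τ.im = -2 * π * (A * τ.im / D) - -2 * π * (N * τ.im) by
      simp only [e]; ring, Real.exp_sub]
    have hD12 : ((D : ℝ) ^ (12 : ℤ)) = (D : ℝ) ^ 12 := by norm_cast
    rw [hD12] at h0
    field_simp at h0 ⊢
    linarith
  rw [this] at hexp
  exact not_tendsto_nhds_of_tendsto_atTop hexp _ hlim

end FLTAgent.IntegralStructure
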