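import Mathlib.NumberTheory.ModularForms.BoundedAtCusp
import Mathlib.Algebra.Polynomial.Roots
import Fermat.Agent.IntegralStructure.DeltaN

set_option autoImplicit false
noncomputable section
namespace FLTAgent.IntegralStructure
open UpperHalfPlane ModularForm MatrixGroups CongruenceSubgroup Filter
open scoped Manifold Topology

/-- cosets of `Γ₀(N)` in `SL₂(ℤ)` -/
abbrev Cosets (N : ℕ) := SL(2, ℤ) ⧸ Gamma0 N

variable {N : ℕ} [NeZero N]

scoped instance : Fintype (Cosets N) := Fintype.ofFinite _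

/-- the base coset -/
abbrev baseCoset (N : ℕ) : Cosets N := ((1 : SL(2, ℤ)) : Cosets N)

/-- a family of functions permuted by `SL₂(ℤ)` in weight `k` -/
structure IsFamily (k : ℤ) (F : Cosets N → ℍ → ℂ) : Prop where
  apply_smul : ∀ (a : SL(2, ℤ)) (q : Cosets N) (τ : ℍ),
    F q (a • τ) = denom a τ ^ k * F (a⁻¹ • q) τ
  holo : ∀ q, MDiff (F q)
  bdd : ∀ q, IsBoundedAtImInfty (F q)

theorem slash_eq_iff_apply_smul {k : ℤ} (a : SL(2, ℤ)) (f g : ℍ → ℂ) :
    f ∣[k] a = g ↔ ∀ τ : ℍ, f (a • τ) = denom a τ ^ k * g τ := by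
  constructor
  · rintro rfl τ
    rw [ModularForm.SL_slash_apply, zpow_neg]
    field_simp [zpow_ne_zero k (denom_ne_zero (a : GL (Fin 2) ℝ) τ)]
  · intro h
    funext τ
    rw [ModularForm.SL_slash_apply, h, zpow_neg]
    field_simp [zpow_ne_zero k (denom_ne_zero (a : GL (Fin 2) ℝ) τ)]

/-- conjugates of a `Γ₀(N)`-invariant function -/
def conjFamily (k : ℤ) (f : ℍ → ℂ) (q : Cosets N) : ℍ → ℂ := f ∣[k] (q.out)⁻¹

omit [NeZero N] in
theorem conjFamily_mk {k : ℤ} {f : ℍ → ℂ} (hf : ∀ γ ∈ Gamma0 N, f ∣[k] γ = f) (g : SL(2, ℤ)) :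
    conjFamily k f (g : Cosets N) = f ∣[k] g⁻¹ := by
  obtain ⟨h, hh⟩ := QuotientGroup.mk_out_eq_mul (Gamma0 N) g
  rw [conjFamily, hh, mul_inv_rev, SlashAction.slash_mul, hf _ (inv_mem h.2)]

theorem conjFamily_base {k : ℤ} {f : ℍ → ℂ} (hf : ∀ γ ∈ Gamma0 N, f ∣[k] γ = f) :
    conjFamily k f (baseCoset N) = f := by
  rw [conjFamily_mk hf, inv_one, SlashAction.slash_one]

theorem isFamily_conjFamily {k : ℤ} {f : ℍ → ℂ} (hf : ∀ γ ∈ Gamma0 N, f ∣[k] γ = f)
    (hol : MDiff f) (hb : ∀ a : SL(2, ℤ), IsBoundedAtImInfty (f ∣[k] a)) :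
    IsFamily (N := N) k (conjFamily k f) := by
  refine ⟨fun a q τ => ?_, fun q => hol.slash _ _, fun q => hb _⟩
  obtain ⟨g, rfl⟩ := QuotientGroup.mk_surjective q
  rw [MulAction.Quotient.smul_coe, conjFamily_mk hf, conjFamily_mk hf, smul_eq_mul, mul_inv_rev,
    inv_inv, SlashAction.slash_mul]
  exact (slash_eq_iff_apply_smul a _ _).1 rfl τ

omit [NeZero N] in
theorem isFamily_one : IsFamily (N := N) 0 (fun _ => 1) :=
  ⟨fun _ _ _ => by simp, fun _ => mdifferentiable_const,
    fun _ => Filter.const_boundedAtFilter atImInfty 1⟩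

/-- conjugates of `1728 Δ(Nz)` -/
def uFamily (N : ℕ) (q : Cosets N) : ℍ → ℂ := conjFamily 12 (uN N) q

theorem isFamily_uFamily : IsFamily (N := N) 12 (uFamily N) :=
  isFamily_conjFamily (fun γ hγ => uN_slash_eq γ hγ) mdifferentiable_uN bounded_uN_slash

theorem uFamily_base : uFamily N (baseCoset N) = uN N :=
  conjFamily_base fun γ hγ => uN_slash_eq γ hγ

theorem uFamily_injective : Function.Injective (uFamily N) := by
  intro p q h
  obtain ⟨g, rfl⟩ := QuotientGroup.mk_surjective p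
  obtain ⟨g', rfl⟩ := QuotientGroup.mk_surjective q
  rw [uFamily, uFamily, conjFamily_mk (fun γ hγ => uN_slash_eq γ hγ),
    conjFamily_mk (fun γ hγ => uN_slash_eq γ hγ)] at h
  rw [QuotientGroup.eq]
  refine mem_Gamma0_of_uN_slash_eq _ ?_
  rw [SlashAction.slash_mul, h, ← SlashAction.slash_mul]
  simp

/-- elementary symmetric functions of a family -/
def eSym (F : Cosets N → ℍ → ℂ) (i : ℕ) : ℍ → ℂ :=
  fun τ => ∑ t ∈ Finset.univ.powersetCard i, ∏ j ∈ t, F j τ

open Classical in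
/-- Lagrange interpolation coefficients -/
def interpCoeff (F U : Cosets N → ℍ → ℂ) (i : ℕ) : ℍ → ℂ :=
  fun τ => ∑ p, F p τ * ∑ t ∈ (Finset.univ.erase p).powersetCard i, ∏ j ∈ t, U j τ

theorem prod_sub_eq_sum {ι : Type*} (s : Finset ι) (U : ι → ℂ) (x : ℂ) :
    ∏ j ∈ s, (x - U j) = ∑ i ∈ Finset.range (s.card + 1),
      (-1) ^ i * (∑ t ∈ s.powersetCard i, ∏ j ∈ t, U j) * x ^ (s.card - i) := by
  classical
  have : ∀ j, x - U j = -U j + x := fun j => by ring
  simp only [this]
  rw [Finset.prod_add, Finset.sum_powerset]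
  refine Finset.sum_congr rfl fun i _ => ?_
  rw [Finset.mul_sum, Finset.sum_mul]
  refine Finset.sum_congr rfl fun t ht => ?_
  obtain ⟨hts, hc⟩ := Finset.mem_powersetCard.1 ht
  rw [Finset.prod_neg, Finset.prod_const, Finset.card_sdiff_of_subset hts, hc]

theorem eSym_monic (F : Cosets N → ℍ → ℂ) (q : Cosets N) (τ : ℍ) :
    ∑ i ∈ Finset.range (Fintype.card (Cosets N) + 1),
      (-1) ^ i * eSym F i τ * F q τ ^ (Fintype.card (Cosets N) - i) = 0 := by
  have h := prod_sub_eq_sum Finset.univ (fun j => F j τ) (F q τ)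
  rw [Finset.card_univ, Finset.prod_eq_zero (Finset.mem_univ q) (sub_self _)] at h
  exact h.symm

open Classical in
theorem interp_eq (F U : Cosets N → ℍ → ℂ) (q : Cosets N) (τ : ℍ) :
    ∑ i ∈ Finset.range (Fintype.card (Cosets N)),
      (-1) ^ i * interpCoeff F U i τ * U q τ ^ (Fintype.card (Cosets N) - 1 - i) =
    F q τ * ∏ p ∈ Finset.univ.erase q, (U q τ - U p τ) := by
  have hn : 0 < Fintype.card (Cosets N) := Fintype.card_pos
  have h1 : ∀ p : Cosets N, ∏ j ∈ Finset.univ.erase p, (U q τ - U j τ) =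
      ∑ i ∈ Finset.range (Fintype.card (Cosets N)), (-1) ^ i *
        (∑ t ∈ (Finset.univ.erase p).powersetCard i, ∏ j ∈ t, U j τ) *
          U q τ ^ (Fintype.card (Cosets N) - 1 - i) := by
    intro p
    rw [prod_sub_eq_sum, Finset.card_erase_of_mem (Finset.mem_univ p), Finset.card_univ,
      Nat.sub_add_cancel hn]
  have h2 : ∑ p : Cosets N, F p τ * ∏ j ∈ Finset.univ.erase p, (U q τ - U j τ) =
      F q τ * ∏ p ∈ Finset.univ.erase q, (U q τ - U p τ) := by
    refine Finset.sum_eq_single q (fun p _ hp => ?_) (by simp)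
    rw [Finset.prod_eq_zero (Finset.mem_erase.2 ⟨Ne.symm hp, Finset.mem_univ q⟩) (sub_self _),
      mul_zero]
  rw [← h2]
  simp only [h1, interpCoeff, Finset.mul_sum, Finset.sum_mul]
  rw [Finset.sum_comm]
  refine Finset.sum_congr rfl fun p _ => Finset.sum_congr rfl fun i _ =>
    Finset.sum_congr rfl fun t _ => by ring

theorem interpCoeff_one (U : Cosets N → ℍ → ℂ) (i : ℕ) (τ : ℍ) :
    interpCoeff (fun _ => 1) U i τ = ((Fintype.card (Cosets N) - i : ℕ) : ℂ) * eSym U i τ := by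
  classical
  simp only [interpCoeff, Pi.one_apply, one_mul, eSym, Finset.mul_sum]
  rw [Finset.sum_comm' (t' := Finset.univ.powersetCard i) (s' := fun t => Finset.univ \ t)]
  · refine Finset.sum_congr rfl fun t ht => ?_
    rw [Finset.sum_const, Finset.card_sdiff_of_subset (Finset.subset_univ t), Finset.card_univ,
      (Finset.mem_powersetCard.1 ht).2, nsmul_eq_mul]
  · intro p t
    simp [Finset.mem_powersetCard, Finset.subset_erase, and_comm]

theorem isFamily_eSym_apply {k : ℤ} {F : Cosets N → ℍ → ℂ} (hF : IsFamily k F) (i : ℕ)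
    (a : SL(2, ℤ)) (τ : ℍ) : eSym F i (a • τ) = denom a τ ^ (k * i) * eSym F i τ := by
  have hmap : (Finset.univ : Finset (Cosets N)).map
      (MulAction.toPerm a⁻¹ : Equiv.Perm (Cosets N)).toEmbedding = Finset.univ :=
    Finset.map_univ_equiv _
  conv_rhs => rw [eSym, ← hmap, Finset.powersetCard_map, Finset.sum_map]
  rw [eSym, Finset.mul_sum]
  refine Finset.sum_congr rfl fun t ht => ?_
  simp only [RelEmbedding.coe_toEmbedding, Finset.mapEmbedding_apply, Finset.prod_map,
    Equiv.coe_toEmbedding, MulAction.toPerm_apply]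
  simp only [hF.apply_smul]
  rw [Finset.prod_mul_distrib, Finset.prod_const, (Finset.mem_powersetCard.1 ht).2, zpow_mul,
    zpow_natCast]

theorem isFamily_interpCoeff_apply {k : ℤ} {F U : Cosets N → ℍ → ℂ} (hF : IsFamily k F)
    (hU : IsFamily 12 U) (i : ℕ) (a : SL(2, ℤ)) (τ : ℍ) :
    interpCoeff F U i (a • τ) = denom a τ ^ (k + 12 * i) * interpCoeff F U i τ := by
  classical
  let e : Equiv.Perm (Cosets N) := MulAction.toPerm a⁻¹
  have hmap : ∀ p, (Finset.univ.erase p).map e.toEmbedding = Finset.univ.erase (e p) := fun p => by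
    rw [Finset.map_erase, Finset.map_univ_equiv]; rfl
  rw [show interpCoeff F U i τ = ∑ p, F (e p) τ *
    ∑ t ∈ (Finset.univ.erase (e p)).powersetCard i, ∏ j ∈ t, U j τ from (Equiv.sum_comp e fun p => F p τ *
    ∑ t ∈ (Finset.univ.erase p).powersetCard i, ∏ j ∈ t, U j τ).symm, Finset.mul_sum]
  simp only [interpCoeff]
  refine Finset.sum_congr rfl fun p _ => ?_
  rw [← hmap p, Finset.powersetCard_map, Finset.sum_map]
  simp only [RelEmbedding.coe_toEmbedding, Finset.mapEmbedding_apply, Finset.prod_map,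
    Equiv.coe_toEmbedding]
  rw [hF.apply_smul, Finset.mul_sum, Finset.mul_sum, Finset.mul_sum]
  refine Finset.sum_congr rfl fun t ht => ?_
  simp only [hU.apply_smul]
  rw [Finset.prod_mul_distrib, Finset.prod_const, (Finset.mem_powersetCard.1 ht).2,
    zpow_add₀ (denom_ne_zero _ τ), zpow_mul, zpow_natCast]
  simp only [e, MulAction.toPerm_apply]
  ring

theorem exists_modularForm_levelOne {w : ℤ} {R : ℍ → ℂ}
    (hR : ∀ (a : SL(2, ℤ)) (τ : ℍ), R (a • τ) = denom a τ ^ w * R τ)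
    (hol : MDiff R) (hb : IsBoundedAtImInfty R) : ∃ g : ModularForm 𝒮ℒ w, ⇑g = R := by
  have hinv : ∀ a : SL(2, ℤ), R ∣[w] a = R := fun a => (slash_eq_iff_apply_smul a R R).2 (hR a)
  refine ⟨{ toFun := R, slash_action_eq' := ?_, holo' := hol, bdd_at_cusps' := ?_ }, rfl⟩
  · rintro _ ⟨a, rfl⟩
    exact hinv a
  · intro c hc
    rw [OnePoint.isBoundedAt_iff_forall_SL2Z (Subgroup.IsArithmetic.isCusp_iff_isCusp_SL2Z _ |>.1 hc)]
    intro a _
    rw [hinv a]
    exact hb

theorem mdifferentiable_eSym {k : ℤ} {F : Cosets N → ℍ → ℂ} (hF : IsFamily k F) (i : ℕ) :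
    MDiff (eSym F i) := by
  have : eSym F i = ∑ t ∈ Finset.univ.powersetCard i, ∏ j ∈ t, F j := by
    funext τ; simp [eSym]
  rw [this]
  exact MDifferentiable.sum fun t _ => MDifferentiable.prod fun j _ => hF.holo j

theorem bounded_eSym {k : ℤ} {F : Cosets N → ℍ → ℂ} (hF : IsFamily k F) (i : ℕ) :
    IsBoundedAtImInfty (eSym F i) := by
  have : eSym F i = ∑ t ∈ Finset.univ.powersetCard i, ∏ j ∈ t, F j := by
    funext τ; simp [eSym]
  rw [this]
  exact (Filter.boundedFilterSubalgebra ℂ atImInfty).sum_mem fun t _ =>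
    prod_mem fun j _ => show F j ∈ Filter.boundedFilterSubalgebra ℂ atImInfty from hF.bdd j

theorem exists_eSym_form {k : ℤ} {F : Cosets N → ℍ → ℂ} (hF : IsFamily k F) (i : ℕ) :
    ∃ g : ModularForm 𝒮ℒ (k * i), ⇑g = fun τ => (-1) ^ i * eSym F i τ := by
  obtain ⟨g, hg⟩ := exists_modularForm_levelOne (isFamily_eSym_apply hF i)
    (mdifferentiable_eSym hF i) (bounded_eSym hF i)
  exact ⟨((-1 : ℂ) ^ i) • g, by funext τ; simp [hg]⟩

theorem exists_interp_form {k : ℤ} {F U : Cosets N → ℍ → ℂ} (hF : IsFamily k F)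
    (hU : IsFamily 12 U) (i : ℕ) :
    ∃ g : ModularForm 𝒮ℒ (k + 12 * i), ⇑g = fun τ => (-1) ^ i * interpCoeff F U i τ := by
  classical
  have e : interpCoeff F U i =
      ∑ p, F p * ∑ t ∈ (Finset.univ.erase p).powersetCard i, ∏ j ∈ t, U j := by
    funext τ; simp [interpCoeff]
  have hol : MDiff (interpCoeff F U i) := by
    rw [e]
    exact MDifferentiable.sum fun p _ => (hF.holo p).mul
      (MDifferentiable.sum fun t _ => MDifferentiable.prod fun j _ => hU.holo j)
  have hb : IsBoundedAtImInfty (interpCoeff F U i) := by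
    rw [e]
    exact (Filter.boundedFilterSubalgebra ℂ atImInfty).sum_mem fun p _ =>
      (Filter.boundedFilterSubalgebra ℂ atImInfty).mul_mem (hF.bdd p)
        ((Filter.boundedFilterSubalgebra ℂ atImInfty).sum_mem fun t _ =>
          prod_mem fun j _ => show U j ∈ Filter.boundedFilterSubalgebra ℂ atImInfty from hU.bdd j)
  obtain ⟨g, hg⟩ := exists_modularForm_levelOne (isFamily_interpCoeff_apply hF hU i) hol hb
  exact ⟨((-1 : ℂ) ^ i) • g, by funext τ; simp [hg]⟩

theorem levelOne_apply_smul {w : ℤ} (g : ModularForm 𝒮ℒ w) (a : SL(2, ℤ)) (τ : ℍ) :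
    g (a • τ) = denom a τ ^ w * g τ :=
  (slash_eq_iff_apply_smul a (g : ℍ → ℂ) g).1 (g.slash_action_eq' _ ⟨a, rfl⟩) τ

/-- transformation of `∑ dᵢ uⁿ⁻¹⁻ⁱ` -/
theorem combination_apply_smul {w : ℤ} (d : (i : ℕ) → ModularForm 𝒮ℒ (w + 12 * i))
    (a : SL(2, ℤ)) (q : Cosets N) (τ : ℍ) :
    ∑ i ∈ Finset.range (Fintype.card (Cosets N)),
      d i (a • τ) * uFamily N q (a • τ) ^ (Fintype.card (Cosets N) - 1 - i) =
    denom a τ ^ (w + 12 * ((Fintype.card (Cosets N) - 1 : ℕ) : ℤ)) *
      ∑ i ∈ Finset.range (Fintype.card (Cosets N)),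
        d i τ * uFamily N (a⁻¹ • q) τ ^ (Fintype.card (Cosets N) - 1 - i) := by
  rw [Finset.mul_sum]
  refine Finset.sum_congr rfl fun i hi => ?_
  rw [levelOne_apply_smul, (isFamily_uFamily (N := N)).apply_smul, mul_pow, ← zpow_natCast,
    ← zpow_mul]
  have : i ≤ Fintype.card (Cosets N) - 1 := by have := Finset.mem_range.1 hi; omega
  rw [show w + 12 * ((Fintype.card (Cosets N) - 1 : ℕ) : ℤ) =
      (w + 12 * i) + 12 * ((Fintype.card (Cosets N) - 1 - i : ℕ) : ℤ) by
    rw [Nat.cast_sub this]; ring]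
  simp only [zpow_add₀ (denom_ne_zero _ τ)]
  ring

/-- `1, u, …, uⁿ⁻¹` are independent over level one forms -/
theorem combination_unique {w : ℤ} (d : (i : ℕ) → ModularForm 𝒮ℒ (w + 12 * i))
    (h : ∀ τ, ∑ i ∈ Finset.range (Fintype.card (Cosets N)),
      d i τ * uN N τ ^ (Fintype.card (Cosets N) - 1 - i) = 0)
    (i : ℕ) (hi : i < Fintype.card (Cosets N)) : d i = 0 := by
  classical
  set n := Fintype.card (Cosets N)
  have hq : ∀ (q : Cosets N) (τ : ℍ),
      ∑ i ∈ Finset.range n, d i τ * uFamily N q τ ^ (n - 1 - i) = 0 := by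
    intro q τ
    obtain ⟨g, rfl⟩ := QuotientGroup.mk_surjective q
    have h1 := combination_apply_smul d g⁻¹ (baseCoset N) τ
    rw [uFamily_base, h] at h1
    rcases mul_eq_zero.1 h1.symm with h2 | h2
    · exact absurd h2 (zpow_ne_zero _ (denom_ne_zero _ τ))
    · simpa using h2
  let pairs := (Finset.univ ×ˢ Finset.univ : Finset (Cosets N × Cosets N)).filter fun p => p.1 ≠ p.2
  let G : ℍ → ℂ := ∏ p ∈ pairs, (uFamily N p.1 - uFamily N p.2)
  have hG : G ≠ 0 := by
    intro hG0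
    obtain ⟨p, hp, h0⟩ := (UpperHalfPlane.prod_eq_zero_iff
      (f := fun p : Cosets N × Cosets N => uFamily N p.1 - uFamily N p.2) (s := pairs)
      (fun p _ => ((isFamily_uFamily (N := N)).holo p.1).sub
        ((isFamily_uFamily (N := N)).holo p.2))).1 hG0
    exact (Finset.mem_filter.1 hp).2 (uFamily_injective (sub_eq_zero.1 h0))
  have hzero : (d i : ℍ → ℂ) * G = 0 := by
    funext τ
    by_cases hGτ : G τ = 0
    · simp [hGτ]
    have hinj : Function.Injective fun q => uFamily N q τ := by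
      intro p q hpq
      by_contra hne
      refine hGτ ?_
      simp only [G, Finset.prod_apply, Pi.sub_apply]
      exact Finset.prod_eq_zero (i := (p, q)) (by simp [pairs, hne]) (sub_eq_zero.2 hpq)
    let P : Polynomial ℂ :=
      ∑ j ∈ Finset.range n, Polynomial.C (d j τ) * Polynomial.X ^ (n - 1 - j)
    have hP : P = 0 := by
      refine Polynomial.eq_zero_of_natDegree_lt_card_of_eval_eq_zero P hinj ?_ ?_
      · intro q
        simp only [P, Polynomial.eval_finsetSum, Polynomial.eval_mul, Polynomial.eval_C,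
          Polynomial.eval_pow, Polynomial.eval_X]
        exact hq q τ
      · refine lt_of_le_of_lt (Polynomial.natDegree_sum_le_of_forall_le _ _ (n := n - 1)
          fun j _ => ?_) (by omega)
        exact (Polynomial.natDegree_C_mul_X_pow_le _ _).trans (Nat.sub_le _ _)
    have := congrArg (fun p : Polynomial ℂ => p.coeff (n - 1 - i)) hP
    simp only [P, Polynomial.finsetSum_coeff, Polynomial.coeff_C_mul_X_pow,
      Polynomial.coeff_zero] at this
    rw [Finset.sum_eq_single i (fun j hj hne => if_neg ?_) (by simp [hi])] at this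
    · rw [Pi.mul_apply]; simp at this; simp [this]
    · have := Finset.mem_range.1 hj; omega
  have hGd : MDiff G := MDifferentiable.prod fun p _ =>
    ((isFamily_uFamily (N := N)).holo p.1).sub ((isFamily_uFamily (N := N)).holo p.2)
  rcases (UpperHalfPlane.mul_eq_zero_iff (ModularFormClass.holo (d i)) hGd).1 hzero with h0 | h0
  · exact DFunLike.coe_injective h0
  · exact absurd h0 hG

end FLTAgent.IntegralStructure
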