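import Fermat.Agent.IntegralStructure.LevelOne

set_option autoImplicit false
noncomputable section
namespace FLTAgent.IntegralStructure
open PowerSeries MatrixGroups

/-- power series with rational coefficients -/
def ratSeries : Subring (PowerSeries ℂ) := (PowerSeries.map (Rat.castHom ℂ)).range

theorem mem_ratSeries {f : PowerSeries ℂ} :
    f ∈ ratSeries ↔ ∀ n, ∃ r : ℚ, f.coeff n = r := by
  constructor
  · rintro ⟨g, rfl⟩ n
    exact ⟨g.coeff n, by simp⟩
  · intro h
    choose r hr using h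
    exact ⟨PowerSeries.mk r, by ext n; simp [hr]⟩

theorem intSeries_le_ratSeries : intSeries ≤ ratSeries := by
  intro f hf
  rw [mem_ratSeries]
  intro n
  obtain ⟨m, hm⟩ := mem_intSeries.1 hf n
  exact ⟨m, by simp [hm]⟩

theorem mem_ratSeries_of_fixed {f : PowerSeries ℂ}
    (h : ∀ σ : ℂ ≃+* ℂ, PowerSeries.map (σ : ℂ →+* ℂ) f = f) : f ∈ ratSeries := by
  rw [mem_ratSeries]
  intro n
  obtain ⟨r, hr⟩ := eq_ratCast_of_forall_ringEquiv (x := f.coeff n) fun σ => by
    simpa using congrArg (fun p => PowerSeries.coeff n p) (h σ)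
  exact ⟨r, hr.symm⟩

theorem map_eq_self_of_mem_ratSeries {f : PowerSeries ℂ} (hf : f ∈ ratSeries) (σ : ℂ ≃+* ℂ) :
    PowerSeries.map (σ : ℂ →+* ℂ) f = f := by
  ext n
  obtain ⟨r, hr⟩ := mem_ratSeries.1 hf n
  simp [hr]

theorem exists_ratProj : ∃ π : ℂ →+ ℚ, ∀ r : ℚ, π r = r := by
  obtain ⟨g, hg⟩ := LinearMap.exists_leftInverse_of_injective (Algebra.linearMap ℚ ℂ)
    (LinearMap.ker_eq_bot.2 (algebraMap ℚ ℂ).injective)
  exact ⟨g.toAddMonoidHom, fun r => by simpa using LinearMap.congr_fun hg r⟩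

/-- a fixed additive retraction of `ℂ` onto `ℚ` -/
def ratProj : ℂ →+ ℚ := exists_ratProj.choose

theorem ratProj_ratCast (r : ℚ) : ratProj r = r := exists_ratProj.choose_spec r

/-- coefficientwise rational projection -/
def seriesProj : PowerSeries ℂ →+ PowerSeries ℂ where
  toFun p := PowerSeries.mk fun n => (ratProj (p.coeff n) : ℂ)
  map_zero' := by ext n; simp
  map_add' p q := by ext n; simp

theorem coeff_seriesProj (p : PowerSeries ℂ) (n : ℕ) :
    (seriesProj p).coeff n = (ratProj (p.coeff n) : ℂ) := by simp [seriesProj]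

theorem seriesProj_mul_of_rat (p : PowerSeries ℂ) {r : PowerSeries ℂ} (hr : r ∈ ratSeries) :
    seriesProj (p * r) = seriesProj p * r := by
  ext n
  rw [coeff_seriesProj, PowerSeries.coeff_mul, PowerSeries.coeff_mul, map_sum, Rat.cast_sum]
  refine Finset.sum_congr rfl fun x _ => ?_
  obtain ⟨c, hc⟩ := mem_ratSeries.1 hr x.2
  rw [coeff_seriesProj, hc, mul_comm, ← Rat.smul_def, map_rat_smul ratProj, smul_eq_mul]
  push_cast
  ring

theorem seriesProj_eq_self {r : PowerSeries ℂ} (hr : r ∈ ratSeries) : seriesProj r = r := by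
  ext n
  obtain ⟨c, hc⟩ := mem_ratSeries.1 hr n
  rw [coeff_seriesProj, hc, ratProj_ratCast]

/-- bounded denominators -/
def HasDen (p : PowerSeries ℂ) : Prop := ∃ D : ℕ, 0 < D ∧ (D : PowerSeries ℂ) * p ∈ intSeries

theorem hasDen_seriesProj {l : ℤ} (f : ModularForm 𝒮ℒ l) :
    HasDen (seriesProj (UpperHalfPlane.qExpansion 1 f)) := by
  obtain ⟨D, hD, h⟩ := exists_levelOne_denominator f ratProj
  refine ⟨D, hD, mem_intSeries.2 fun n => ?_⟩
  obtain ⟨m, hm⟩ := h n
  refine ⟨m, ?_⟩
  rw [← map_natCast (C (R := ℂ)), PowerSeries.coeff_C_mul, coeff_seriesProj]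
  exact_mod_cast hm

theorem HasDen.mul_int {p q : PowerSeries ℂ} (hp : HasDen p) (hq : q ∈ intSeries) :
    HasDen (p * q) := by
  obtain ⟨D, hD, h⟩ := hp
  exact ⟨D, hD, by rw [← mul_assoc]; exact intSeries.mul_mem h hq⟩

theorem HasDen.exists_common {ι : Type*} (s : Finset ι) {p : ι → PowerSeries ℂ}
    (h : ∀ i ∈ s, HasDen (p i)) :
    ∃ D : ℕ, 0 < D ∧ ∀ i ∈ s, (D : PowerSeries ℂ) * p i ∈ intSeries := by
  classical
  induction s using Finset.induction_on with
  | empty => exact ⟨1, one_pos, by simp⟩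
  | insert a s ha ih =>
    obtain ⟨D, hD, hs⟩ := ih fun i hi => h i (Finset.mem_insert_of_mem hi)
    obtain ⟨E, hE, ha'⟩ := h a (Finset.mem_insert_self a s)
    refine ⟨D * E, Nat.mul_pos hD hE, fun i hi => ?_⟩
    rw [Nat.cast_mul]
    rcases Finset.mem_insert.1 hi with rfl | hi
    · rw [mul_assoc]; exact intSeries.mul_mem (natCast_mem intSeries D) ha'
    · rw [mul_right_comm]; exact intSeries.mul_mem (hs i hi) (natCast_mem intSeries E)

theorem HasDen.sum {ι : Type*} (s : Finset ι) {p : ι → PowerSeries ℂ}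
    (h : ∀ i ∈ s, HasDen (p i)) : HasDen (∑ i ∈ s, p i) := by
  obtain ⟨D, hD, hs⟩ := HasDen.exists_common s h
  exact ⟨D, hD, by rw [Finset.mul_sum]; exact intSeries.sum_mem hs⟩

/-- bounded denominators for a root of a monic polynomial in the fraction field -/
theorem hasDen_of_integral {n : ℕ} {c : ℕ → PowerSeries ℂ} {f B A : PowerSeries ℂ}
    (hf : f ∈ ratSeries) (hB0 : B ≠ 0) (hc0 : c 0 = 1)
    (hc : ∀ i ∈ Finset.range (n + 1), HasDen (c i)) (hB : HasDen B) (hA : HasDen A)
    (hfB : f * B = A) (heq : ∑ i ∈ Finset.range (n + 1), c i * f ^ (n - i) = 0) : HasDen f := by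
  obtain ⟨D, hD, hDc⟩ := HasDen.exists_common _ hc
  obtain ⟨E1, hE1, hE1B⟩ := hB
  obtain ⟨E2, hE2, hE2A⟩ := hA
  refine ⟨D, hD, ?_⟩
  let K : ℕ → PowerSeries ℂ := fun j =>
    if j < n then -((D : PowerSeries ℂ) ^ (n - j) * c (n - j)) else 0
  refine mem_intSeries_of_monic (c := K) (n := n)
    (e := ((E1 * E2 : ℕ) : PowerSeries ℂ) * B) ?_ ?_ ?_ ?_ ?_ ?_
  · intro j
    simp only [K]
    split_ifs with hj
    · refine intSeries.neg_mem ?_
      rw [show n - j = (n - j - 1) + 1 by omega, pow_succ, mul_assoc]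
      exact intSeries.mul_mem (intSeries.pow_mem (natCast_mem intSeries D) _)
        (hDc _ (Finset.mem_range.2 (by omega)))
    · exact intSeries.zero_mem
  · have h1 : ∑ i ∈ Finset.range (n + 1),
        (D : PowerSeries ℂ) ^ i * c i * ((D : PowerSeries ℂ) * f) ^ (n - i) = 0 := by
      rw [show (0 : PowerSeries ℂ) = (D : PowerSeries ℂ) ^ n * 0 by simp, ← heq, Finset.mul_sum]
      refine Finset.sum_congr rfl fun i hi => ?_
      have : i ≤ n := by have := Finset.mem_range.1 hi; omega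
      conv_rhs => rw [show n = i + (n - i) by omega, pow_add, show i + (n - i) = n by omega]
      ring
    rw [← Finset.sum_range_reflect, Finset.sum_range_succ] at h1
    simp only [Nat.add_sub_cancel, Nat.sub_self, hc0, pow_zero, one_mul, Nat.sub_zero] at h1
    rw [eq_neg_of_add_eq_zero_right h1, ← Finset.sum_neg_distrib]
    refine Finset.sum_congr rfl fun j hj => ?_
    have hj' := Finset.mem_range.1 hj
    rw [show n - (n - j) = j by omega]
    simp only [K, if_pos hj']
    ring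
  · rw [Nat.cast_mul, mul_right_comm]
    exact intSeries.mul_mem hE1B (natCast_mem intSeries E2)
  · refine mul_ne_zero ?_ hB0
    rw [← map_natCast (C (R := ℂ))]
    simp only [ne_eq, map_eq_zero_iff _ (PowerSeries.C_injective (R := ℂ)), Nat.cast_eq_zero]
    positivity
  · rw [Nat.cast_mul, show (E1 : PowerSeries ℂ) * E2 * B * (D * f) =
      ((D : PowerSeries ℂ) * E1) * ((E2 : PowerSeries ℂ) * (f * B)) by ring, hfB]
    exact intSeries.mul_mem (intSeries.mul_mem (natCast_mem intSeries D)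
      (natCast_mem intSeries E1)) hE2A
  · exact mem_ratSeries.1 (ratSeries.mul_mem (natCast_mem ratSeries D) hf)

end FLTAgent.IntegralStructure
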