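import Mathlib.Analysis.Complex.RemovableSingularity
import Mathlib.Analysis.Complex.UpperHalfPlane.Manifold

set_option autoImplicit false
noncomputable section
namespace FLTAgent.IntegralStructure
open UpperHalfPlane Filter Complex
open scoped Manifold Topology

/-- a root of a monic polynomial is small when the coefficients are -/
theorem norm_lt_of_monic_eq_zero {n : ℕ} {c : ℕ → ℂ} {x : ℂ} {ε : ℝ} (hε : 0 < ε)
    (h0 : c 0 = 1) (h : ∑ i ∈ Finset.range (n + 1), c i * x ^ (n - i) = 0)
    (hs : ∑ i ∈ Finset.range n, ‖c (i + 1)‖ / ε ^ (i + 1) < 1) : ‖x‖ < ε := by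
  by_contra hx
  push Not at hx
  have hx0 : 0 < ‖x‖ := hε.trans_le hx
  rw [Finset.sum_range_succ'] at h
  simp only [h0, one_mul, Nat.sub_zero] at h
  have h1 : x ^ n = -∑ i ∈ Finset.range n, c (i + 1) * x ^ (n - (i + 1)) := by linear_combination h
  have h2 : ‖x‖ ^ n ≤ ∑ i ∈ Finset.range n, ‖c (i + 1)‖ / ε ^ (i + 1) * ‖x‖ ^ n := by
    calc ‖x‖ ^ n = ‖x ^ n‖ := (norm_pow _ _).symm
      _ ≤ ∑ i ∈ Finset.range n, ‖c (i + 1) * x ^ (n - (i + 1))‖ := by
        rw [h1, norm_neg]; exact norm_sum_le _ _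
      _ ≤ _ := by
        refine Finset.sum_le_sum fun i hi => ?_
        have hi' := Finset.mem_range.1 hi
        rw [norm_mul, norm_pow, div_mul_eq_mul_div, le_div_iff₀ (by positivity), mul_assoc]
        refine mul_le_mul_of_nonneg_left ?_ (norm_nonneg _)
        conv_rhs => rw [show n = (n - (i + 1)) + (i + 1) by omega, pow_add]
        exact mul_le_mul_of_nonneg_left (pow_le_pow_left₀ hε.le hx _) (by positivity)
  rw [← Finset.sum_mul] at h2
  have : 0 < ‖x‖ ^ n := pow_pos hx0 n
  nlinarith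

theorem norm_le_of_monic_eq_zero {n : ℕ} {c : ℕ → ℂ} {x : ℂ}
    (h0 : c 0 = 1) (h : ∑ i ∈ Finset.range (n + 1), c i * x ^ (n - i) = 0) :
    ‖x‖ ≤ 1 + ∑ i ∈ Finset.range n, ‖c (i + 1)‖ := by
  set s := ∑ i ∈ Finset.range n, ‖c (i + 1)‖ with hs
  have hs0 : 0 ≤ s := Finset.sum_nonneg fun i _ => norm_nonneg _
  refine (norm_lt_of_monic_eq_zero (ε := 1 + s) (by linarith) h0 h ?_).le
  refine lt_of_le_of_lt (Finset.sum_le_sum (g := fun i => ‖c (i + 1)‖ / (1 + s)) fun i _ => ?_) ?_
  · refine div_le_div_of_nonneg_left (norm_nonneg _) (by linarith) ?_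
    exact le_self_pow₀ (by linarith) (Nat.succ_ne_zero i)
  · rw [← Finset.sum_div, div_lt_one (by linarith), ← hs]; linarith

/-- a quotient of holomorphic functions integral over holomorphic functions is holomorphic -/
theorem exists_extension {A B : ℍ → ℂ} (hA : MDiff A) (hB : MDiff B) (hB0 : B ≠ 0) {n : ℕ}
    {c : ℕ → ℍ → ℂ} (hc : ∀ i, Continuous (c i)) (hc0 : c 0 = 1)
    (hid : ∀ τ, ∑ i ∈ Finset.range (n + 1), c i τ * A τ ^ (n - i) * B τ ^ i = 0) :
    ∃ F : ℍ → ℂ, MDiff F ∧ (∀ τ, F τ * B τ = A τ) ∧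
      ∀ τ, ∑ i ∈ Finset.range (n + 1), c i τ * F τ ^ (n - i) = 0 := by
  let h : ℂ → ℂ := fun z => A (ofComplex z) / B (ofComplex z)
  have hroot : ∀ τ : ℍ, B τ ≠ 0 →
      ∑ i ∈ Finset.range (n + 1), c i τ * (A τ / B τ) ^ (n - i) = 0 := by
    intro τ hτ
    have e := congrArg (· / B τ ^ n) (hid τ)
    simp only [zero_div, Finset.sum_div] at e
    rw [← e]
    refine Finset.sum_congr rfl fun i hi => ?_
    have hi' : i ≤ n := by have := Finset.mem_range.1 hi; omega
    have hne : B τ ^ n ≠ 0 := pow_ne_zero _ hτ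
    rw [div_pow, eq_div_iff hne]
    rw [show B τ ^ n = B τ ^ (n - i) * B τ ^ i by rw [← pow_add]; congr 1; omega]
    field_simp
  have hBnz : ∀ z0 ∈ upperHalfPlaneSet,
      ∀ᶠ z in 𝓝[≠] z0, B (ofComplex z) ≠ 0 := by
    intro z0 hz0
    have han := ((UpperHalfPlane.mdifferentiable_iff.1 hB).analyticOnNhd isOpen_upperHalfPlaneSet)
    by_contra hne
    rw [Filter.not_eventually] at hne
    simp only [ne_eq, not_not] at hne
    have h0 := han.eqOn_zero_of_preconnected_of_frequently_eq_zero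
      (Complex.isConnected_of_upperHalfPlane subset_rfl (by intro z hz; exact (le_of_lt (Set.mem_ofPred.1 hz) : (0:ℝ) ≤ z.im))).isPreconnected
      hz0 hne
    refine hB0 (funext fun τ => ?_)
    simpa [ofComplex_apply] using h0 τ.im_pos
  let F : ℂ → ℂ := fun z => limUnder (𝓝[≠] z) h
  have hdA := UpperHalfPlane.mdifferentiable_iff.1 hA
  have hdB := UpperHalfPlane.mdifferentiable_iff.1 hB
  have hdh : ∀ z ∈ upperHalfPlaneSet, B (ofComplex z) ≠ 0 → DifferentiableAt ℂ h z := by
    intro z hz hne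
    exact (hdA.differentiableAt (isOpen_upperHalfPlaneSet.mem_nhds hz)).div
      (hdB.differentiableAt (isOpen_upperHalfPlaneSet.mem_nhds hz)) hne
  have hFeq : ∀ z ∈ upperHalfPlaneSet, B (ofComplex z) ≠ 0 → F z = h z := fun z hz hne =>
    ((hdh z hz hne).continuousAt.tendsto.mono_left nhdsWithin_le_nhds).limUnder_eq
  have hFd : ∀ z0 ∈ upperHalfPlaneSet, DifferentiableAt ℂ F z0 ∧
      Tendsto h (𝓝[≠] z0) (𝓝 (F z0)) := by
    intro z0 hz0
    have hev := (hBnz z0 hz0).and
      (mem_nhdsWithin_of_mem_nhds (isOpen_upperHalfPlaneSet.mem_nhds hz0))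
    rw [eventually_nhdsWithin_iff] at hev
    let M : ℂ → ℝ := fun z => 1 + ∑ i ∈ Finset.range n, ‖c (i + 1) (ofComplex z)‖
    have hM : ContinuousAt M z0 := by
      refine continuousAt_const.add ?_
      refine tendsto_finsetSum _ fun i _ => ?_
      exact ((hc (i + 1)).continuousAt.comp
        (mdifferentiableAt_ofComplex hz0).continuousAt).norm
    have hMev := hM.eventually (Iio_mem_nhds (lt_add_one (M z0)))
    obtain ⟨r, hr, hball⟩ := Metric.eventually_nhds_iff_ball.1 (hev.and hMev)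
    have hbd : BddAbove (norm ∘ h '' (Metric.ball z0 r \ {z0})) := by
      refine ⟨M z0 + 1, ?_⟩
      rintro _ ⟨z, ⟨hz, hne⟩, rfl⟩
      have hp := hball z hz
      have hB' := (hp.1 hne).1
      exact (norm_le_of_monic_eq_zero (c := fun i => c i (ofComplex z)) (by simp [hc0])
        (hroot _ hB')).trans hp.2.le
    have hd : DifferentiableOn ℂ h (Metric.ball z0 r \ {z0}) := by
      rintro z ⟨hz, hne⟩
      have hp := (hball z hz).1 hne
      exact (hdh z hp.2 hp.1).differentiableWithinAt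
    have hupd := differentiableOn_update_limUnder_of_bddAbove (Metric.ball_mem_nhds z0 hr) hd hbd
    have heq : Set.EqOn F (Function.update h z0 (limUnder (𝓝[≠] z0) h)) (Metric.ball z0 r) := by
      intro z hz
      rcases eq_or_ne z z0 with rfl | hne
      · simp [F]
      · rw [Function.update_of_ne hne]
        have hp := (hball z hz).1 hne
        exact hFeq z hp.2 hp.1
    refine ⟨((hupd.congr heq).differentiableAt (Metric.ball_mem_nhds z0 hr)), ?_⟩
    have := (hupd.differentiableAt (Metric.ball_mem_nhds z0 hr)).continuousAt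
    rw [continuousAt_update_same] at this
    exact this
  refine ⟨fun τ => F τ, ?_, ?_, ?_⟩
  · rw [UpperHalfPlane.mdifferentiable_iff]
    intro z hz
    refine ((hFd z hz).1.congr_of_eventuallyEq ?_).differentiableWithinAt
    filter_upwards [isOpen_upperHalfPlaneSet.mem_nhds hz] with w hw
    simp [Function.comp_apply, ofComplex_apply_of_im_pos hw]
  · intro τ
    by_cases hτ : B τ = 0
    · have hlim : Tendsto (fun z => h z * B (ofComplex z)) (𝓝[≠] (τ : ℂ))
          (𝓝 (F τ * B τ)) := by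
        refine (hFd _ τ.im_pos).2.mul ?_
        have := (hdB.differentiableAt (isOpen_upperHalfPlaneSet.mem_nhds τ.im_pos)).continuousAt
        simpa [ofComplex_apply, Function.comp_def] using this.tendsto.mono_left nhdsWithin_le_nhds
      have hA' : Tendsto (fun z => h z * B (ofComplex z)) (𝓝[≠] (τ : ℂ)) (𝓝 (A τ)) := by
        have hcA := (hdA.differentiableAt (isOpen_upperHalfPlaneSet.mem_nhds τ.im_pos)).continuousAt
        have h2 : Tendsto (fun z => A (ofComplex z)) (𝓝[≠] (τ : ℂ)) (𝓝 (A τ)) := by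
          simpa [ofComplex_apply, Function.comp_def] using hcA.tendsto.mono_left nhdsWithin_le_nhds
        refine h2.congr' ?_
        filter_upwards [hBnz _ τ.im_pos] with z hz
        simp [h, hz]
      exact tendsto_nhds_unique hlim hA'
    · show F τ * B τ = A τ
      rw [hFeq _ τ.im_pos (by simpa [ofComplex_apply] using hτ)]
      simp [h, ofComplex_apply, hτ]
  · intro τ
    let S : ℂ → ℂ := fun z => ∑ i ∈ Finset.range (n + 1), c i (ofComplex z) * h z ^ (n - i)
    have hlim : Tendsto S (𝓝[≠] (τ : ℂ))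
        (𝓝 (∑ i ∈ Finset.range (n + 1), c i τ * F τ ^ (n - i))) := by
      refine tendsto_finsetSum _ fun i _ => Tendsto.mul ?_ ((hFd _ τ.im_pos).2.pow _)
      have := ((hc i).continuousAt.comp (mdifferentiableAt_ofComplex τ.im_pos).continuousAt
        ).tendsto.mono_left (nhdsWithin_le_nhds (s := {(τ : ℂ)}ᶜ))
      simpa [ofComplex_apply, Function.comp_def] using this
    refine tendsto_nhds_unique hlim (tendsto_const_nhds.congr' ?_)
    filter_upwards [hBnz _ τ.im_pos] with z hz
    exact (hroot _ hz).symm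

end FLTAgent.IntegralStructure
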