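import Fermat.Prelude.Thm_CongruenceSubgroup_one_mem_strictPeriods_Gamma0
import Fermat.Agent.IntegralStructure.Conjugates
import Fermat.Agent.IntegralStructure.Extend
import Fermat.Agent.IntegralStructure.Denominators

set_option autoImplicit false
noncomputable section
namespace FLTAgent.IntegralStructure
open UpperHalfPlane ModularForm MatrixGroups CongruenceSubgroup Filter
open scoped Manifold Topology

variable {N : ℕ} [NeZero N] {k : ℤ}

theorem cusp_slash_eq (f : CuspForm (Gamma0 N) k) :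
    ∀ γ ∈ Gamma0 N, (f : ℍ → ℂ) ∣[k] γ = f := fun γ hγ =>
  SlashInvariantFormClass.slash_action_eq f _ ⟨γ, hγ, rfl⟩

theorem cusp_slash_zero (f : CuspForm (Gamma0 N) k) (a : SL(2, ℤ)) :
    IsZeroAtImInfty ((f : ℍ → ℂ) ∣[k] a) := by
  refine f.zero_at_cusps' ?_ (Matrix.SpecialLinearGroup.mapGL ℝ a) rfl
  exact (Subgroup.IsArithmetic.isCusp_iff_isCusp_SL2Z _).2 (isCusp_SL2Z_iff'.2 ⟨a, rfl⟩)

/-- the conjugates of a cusp form -/
def cuspFamily (f : CuspForm (Gamma0 N) k) : Cosets N → ℍ → ℂ := conjFamily k f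

theorem isFamily_cuspFamily (f : CuspForm (Gamma0 N) k) : IsFamily k (cuspFamily f) :=
  isFamily_conjFamily (cusp_slash_eq f) (CuspFormClass.holo f)
    fun a => (cusp_slash_zero f a).boundedAtFilter

theorem cuspFamily_base (f : CuspForm (Gamma0 N) k) : cuspFamily f (baseCoset N) = f :=
  conjFamily_base (cusp_slash_eq f)

/-- a level one form as an element of `qFn` -/
def qL {w : ℤ} (g : ModularForm 𝒮ℒ w) : qFn :=
  ⟨g, modularForm_mem_qFn g one_mem_strictPeriods_SL⟩

/-- `1728 Δ(Nz)` in `qFn` -/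
def qU (N : ℕ) [NeZero N] : qFn := ⟨uN N, uN_mem_qFn⟩

/-- a cusp form as an element of `qFn` -/
def qC (f : CuspForm (Gamma0 N) k) : qFn :=
  ⟨f, modularForm_mem_qFn f (CongruenceSubgroup.one_mem_strictPeriods_Gamma0 N)⟩

@[simp] theorem coe_qL {w : ℤ} (g : ModularForm 𝒮ℒ w) : ((qL g : qFn) : ℍ → ℂ) = g := rfl
@[simp] theorem coe_qU : ((qU N : qFn) : ℍ → ℂ) = uN N := rfl
@[simp] theorem coe_qC (f : CuspForm (Gamma0 N) k) : ((qC f : qFn) : ℍ → ℂ) = f := rfl

theorem qFn_sum_apply {ι : Type*} (s : Finset ι) (x : ι → qFn) (τ : ℍ) :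
    ((∑ i ∈ s, x i : qFn) : ℍ → ℂ) τ = ∑ i ∈ s, (x i : ℍ → ℂ) τ := by
  rw [← Subalgebra.val_apply, map_sum, Finset.sum_apply]
  rfl

theorem exists_qL_conj {w : ℤ} (g : ModularForm 𝒮ℒ w) (σ : ℂ ≃+* ℂ) :
    ∃ g' : ModularForm 𝒮ℒ w, qHom (qL g') = PowerSeries.map (σ : ℂ →+* ℂ) (qHom (qL g)) := by
  obtain ⟨g', hg'⟩ := exists_levelOne_mapCoeff g (σ : ℂ →+* ℂ).toAddMonoidHom
  exact ⟨g', PowerSeries.ext fun n => by simpa [qHom_apply] using hg' n⟩

theorem map_qU (σ : ℂ ≃+* ℂ) :
    PowerSeries.map (σ : ℂ →+* ℂ) (qHom (qU N)) = qHom (qU N) :=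
  map_eq_self_of_mem_ratSeries (intSeries_le_ratSeries (by simpa [qHom_apply] using qExpansion_uN_mem)) σ

/-- `∑ dᵢ uⁿ⁻¹⁻ⁱ` -/
def comb {w : ℤ} (d : (i : ℕ) → ModularForm 𝒮ℒ (w + 12 * i)) : qFn :=
  ∑ i ∈ Finset.range (Fintype.card (Cosets N)),
    qL (d i) * qU N ^ (Fintype.card (Cosets N) - 1 - i)

theorem comb_apply {w : ℤ} (d : (i : ℕ) → ModularForm 𝒮ℒ (w + 12 * i)) (τ : ℍ) :
    (comb (N := N) d : ℍ → ℂ) τ = ∑ i ∈ Finset.range (Fintype.card (Cosets N)),
      d i τ * uN N τ ^ (Fintype.card (Cosets N) - 1 - i) := by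
  simp [comb, Finset.sum_apply]

theorem comb_apply_smul {w : ℤ} (d : (i : ℕ) → ModularForm 𝒮ℒ (w + 12 * i)) {γ : SL(2, ℤ)}
    (hγ : γ ∈ Gamma0 N) (τ : ℍ) :
    (comb (N := N) d : ℍ → ℂ) (γ • τ) =
      denom γ τ ^ (w + 12 * ((Fintype.card (Cosets N) - 1 : ℕ) : ℤ)) *
        (comb (N := N) d : ℍ → ℂ) τ := by
  rw [comb_apply, comb_apply]
  have h := combination_apply_smul d γ (baseCoset N) τ
  have : (γ⁻¹ : SL(2, ℤ)) • baseCoset N = baseCoset N := by
    rw [MulAction.Quotient.smul_coe, smul_eq_mul, mul_one, QuotientGroup.eq]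
    simpa using hγ
  rwa [this, uFamily_base] at h

theorem qHom_comb {w : ℤ} (d : (i : ℕ) → ModularForm 𝒮ℒ (w + 12 * i)) :
    qHom (comb (N := N) d) = ∑ i ∈ Finset.range (Fintype.card (Cosets N)),
      qHom (qL (d i)) * qHom (qU N) ^ (Fintype.card (Cosets N) - 1 - i) := by
  simp [comb]

theorem symU_rational {i : ℕ} (hi : i ≤ Fintype.card (Cosets N)) {g : ModularForm 𝒮ℒ (12 * i)}
    (hg : ⇑g = fun τ => (-1) ^ i * eSym (uFamily N) i τ) : qHom (qL g) ∈ ratSeries := by
  set n := Fintype.card (Cosets N)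
  choose e he using fun i => exists_eSym_form (isFamily_uFamily (N := N)) i
  have hge : g = e i := DFunLike.coe_injective (by rw [hg, he])
  subst hge
  refine mem_ratSeries_of_fixed fun σ => ?_
  choose e' he' using fun i => exists_qL_conj (e i) σ
  have hrel : ∑ j ∈ Finset.range (n + 1), qL (e j) * qU N ^ (n - j) = 0 := by
    apply Subtype.ext
    funext τ
    have := eSym_monic (uFamily N) (baseCoset N) τ
    rw [uFamily_base] at this
    simpa [Finset.sum_apply, he] using this
  have hrel' : ∑ j ∈ Finset.range (n + 1), qL (e' j) * qU N ^ (n - j) = 0 := by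
    apply qHom_injective
    have := congrArg (fun x => PowerSeries.map (σ : ℂ →+* ℂ) (qHom x)) hrel
    simpa [map_sum, map_mul, map_pow, he', map_qU] using this
  have h0 : qL (e' 0) = qL (e 0) := by
    have h1 : qL (e 0) = 1 := by
      apply Subtype.ext
      funext τ
      simp [he, eSym]
    apply qHom_injective
    rw [he', h1, map_one, map_one]
  let d : (j : ℕ) → ModularForm 𝒮ℒ (12 + 12 * j) :=
    fun j => ModularForm.mcast (by push_cast; ring) (e' (j + 1) - e (j + 1))
  have hd : ∀ τ, ∑ j ∈ Finset.range n, d j τ * uN N τ ^ (n - 1 - j) = 0 := by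
    intro τ
    have a := congrFun (congrArg Subtype.val hrel) τ
    have b := congrFun (congrArg Subtype.val hrel') τ
    have c := congrFun (congrArg Subtype.val h0) τ
    rw [qFn_sum_apply] at a b
    rw [Finset.sum_range_succ'] at a b
    simp only [MulMemClass.coe_mul, SubmonoidClass.coe_pow, Pi.mul_apply, Pi.pow_apply, coe_qL,
      coe_qU, ZeroMemClass.coe_zero, Pi.zero_apply] at a b c
    rw [c] at b
    simp only [d, coe_mcast, sub_apply, sub_mul, Finset.sum_sub_distrib]
    simp only [Nat.sub_sub, add_comm 1]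
    linear_combination b - a
  have huniq := combination_unique d hd
  rcases i with _ | j
  · rw [← he', h0]
  · have h1 := huniq j (by omega)
    have h2 : e' (j + 1) = e (j + 1) := by
      ext τ
      have := congrArg (fun x : ModularForm 𝒮ℒ _ => x τ) h1
      simpa [d, sub_eq_zero] using this
    rw [← he', h2]

/-- the structure used to conjugate a form -/
theorem exists_data (f : CuspForm (Gamma0 N) k) :
    ∃ (c : (i : ℕ) → ModularForm 𝒮ℒ (k * i)) (d : (i : ℕ) → ModularForm 𝒮ℒ (k + 12 * i))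
      (b : (i : ℕ) → ModularForm 𝒮ℒ (0 + 12 * i)),
      qL (c 0) = 1 ∧ (∀ i, IsZeroAtImInfty (c (i + 1) : ℍ → ℂ)) ∧
      comb (N := N) b ≠ 0 ∧
      (∀ i ∈ Finset.range (Fintype.card (Cosets N)), qHom (qL (b i)) ∈ ratSeries) ∧
      qC f * comb (N := N) b = comb (N := N) d ∧
      ∑ i ∈ Finset.range (Fintype.card (Cosets N) + 1),
        qL (c i) * qC f ^ (Fintype.card (Cosets N) - i) = 0 := by
  classical
  set n := Fintype.card (Cosets N)
  choose c hc using fun i => exists_eSym_form (isFamily_cuspFamily f) i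
  choose d hd using fun i => exists_interp_form (isFamily_cuspFamily f) (isFamily_uFamily (N := N)) i
  choose b hb using fun i => exists_interp_form (isFamily_one (N := N)) (isFamily_uFamily (N := N)) i
  refine ⟨c, d, b, ?_, ?_, ?_, ?_, ?_, ?_⟩
  · apply Subtype.ext; funext τ; simp [hc, eSym]
  · intro i
    rw [hc]
    have h0 : ∀ q, Tendsto (cuspFamily f q) atImInfty (𝓝 0) := fun q => cusp_slash_zero f _
    have : Tendsto (fun τ => eSym (cuspFamily f) (i + 1) τ) atImInfty
        (𝓝 (∑ t ∈ (Finset.univ : Finset (Cosets N)).powersetCard (i + 1), ∏ j ∈ t, (0 : ℂ))) :=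
      tendsto_finsetSum _ fun t _ => tendsto_finsetProd _ fun j _ => h0 j
    rw [Finset.sum_eq_zero (fun t ht => by
      rw [Finset.prod_const, (Finset.mem_powersetCard.1 ht).2]; simp)] at this
    simpa [IsZeroAtImInfty, ZeroAtFilter] using this.const_mul ((-1 : ℂ) ^ (i + 1))
  · intro h
    let G : ℍ → ℂ := ∏ p ∈ Finset.univ.erase (baseCoset N),
      (uFamily N (baseCoset N) - uFamily N p)
    have hG : (comb (N := N) b : ℍ → ℂ) = G := by
      funext τ
      have := interp_eq (fun _ => 1) (uFamily N) (baseCoset N) τ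
      rw [comb_apply]
      simp only [hb]
      simpa [G, Finset.prod_apply, uFamily_base] using this
    rw [h] at hG
    obtain ⟨p, hp, hp0⟩ := (UpperHalfPlane.prod_eq_zero_iff
      (f := fun p => uFamily N (baseCoset N) - uFamily N p)
      (s := Finset.univ.erase (baseCoset N))
      (fun p _ => ((isFamily_uFamily (N := N)).holo _).sub
        ((isFamily_uFamily (N := N)).holo p))).1 (by simpa [G] using hG.symm)
    exact (Finset.mem_erase.1 hp).1 (uFamily_injective (sub_eq_zero.1 hp0)).symm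
  · intro i hi
    obtain ⟨g, hg⟩ := exists_eSym_form (isFamily_uFamily (N := N)) i
    have : qL (b i) = ((n - i : ℕ) : qFn) * qL g := by
      apply Subtype.ext
      funext τ
      simp [hb, hg, interpCoeff_one, n]
      ring
    rw [this, map_mul, map_natCast]
    exact ratSeries.mul_mem (natCast_mem ratSeries _)
      (symU_rational (by have := Finset.mem_range.1 hi; omega) hg)
  · apply Subtype.ext
    funext τ
    have h1 := interp_eq (fun _ => 1) (uFamily N) (baseCoset N) τ
    have h2 := interp_eq (cuspFamily f) (uFamily N) (baseCoset N) τ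
    rw [uFamily_base] at h1 h2
    rw [cuspFamily_base] at h2
    simp only [Pi.one_apply, one_mul] at h1
    simp only [MulMemClass.coe_mul, Pi.mul_apply, comb_apply, coe_qC, hb, hd]
    rw [h1, h2]
  · apply Subtype.ext
    funext τ
    have := eSym_monic (cuspFamily f) (baseCoset N) τ
    rw [cuspFamily_base] at this
    simpa [Finset.sum_apply, hc] using this

/-- the Galois conjugate of a cusp form -/
theorem exists_conjForm (σ : ℂ ≃+* ℂ) (f : CuspForm (Gamma0 N) k) :
    ∃ g : CuspForm (Gamma0 N) k, qHom (qC g) = PowerSeries.map (σ : ℂ →+* ℂ) (qHom (qC f)) := by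
  obtain ⟨c, d, b, hc0, hcz, hB0, hbr, hfB, hid⟩ := exists_data f
  set n := Fintype.card (Cosets N)
  choose c' hc' using fun i => exists_qL_conj (c i) σ
  choose d' hd' using fun i => exists_qL_conj (d i) σ
  have hBσ : PowerSeries.map (σ : ℂ →+* ℂ) (qHom (comb (N := N) b)) = qHom (comb (N := N) b) := by
    rw [qHom_comb, map_sum]
    refine Finset.sum_congr rfl fun i hi => ?_
    rw [map_mul, map_pow, map_qU, map_eq_self_of_mem_ratSeries (hbr i hi)]
  have hA' : qHom (comb (N := N) d') = PowerSeries.map (σ : ℂ →+* ℂ) (qHom (comb (N := N) d)) := by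
    simp [qHom_comb, hd', map_qU]
  have hc'0 : qL (c' 0) = 1 := by
    apply qHom_injective
    rw [hc', hc0, map_one, map_one]
  have hc'z : ∀ i, IsZeroAtImInfty (c' (i + 1) : ℍ → ℂ) := by
    intro i
    have h0 : (qExpansion 1 (c (i + 1))).coeff 0 = 0 := by
      rw [← coe_qL (c (i + 1)), UpperHalfPlane.qExpansion_coeff_zero one_pos
        (analyticAt_of_mem_qFn (qL (c (i + 1))).2) (by exact_mod_cast (qL (c (i + 1))).2.1)]
      exact (hcz i).valueAtInfty_eq_zero
    have h1 : (qExpansion 1 (c' (i + 1))).coeff 0 = 0 := by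
      have := congrArg (fun p => PowerSeries.coeff 0 p) (hc' (i + 1))
      simpa [qHom_apply, h0, -PowerSeries.coeff_zero_eq_constantCoeff] using this
    exact CuspFormClass.zero_at_infty (toCuspForm (c' (i + 1)) h1)
  have hid' : ∑ i ∈ Finset.range (n + 1),
      qL (c' i) * comb (N := N) d' ^ (n - i) * comb (N := N) b ^ i = 0 := by
    have h1 : ∑ i ∈ Finset.range (n + 1),
        qL (c i) * comb (N := N) d ^ (n - i) * comb (N := N) b ^ i = 0 := by
      rw [← zero_mul (comb (N := N) b ^ n), ← hid, Finset.sum_mul]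
      refine Finset.sum_congr rfl fun i hi => ?_
      have : i ≤ n := by have := Finset.mem_range.1 hi; omega
      rw [← hfB]
      conv_rhs => rw [show n = (n - i) + i by omega, pow_add, show (n - i) + i = n by omega]
      ring
    apply qHom_injective
    have := congrArg (fun x => PowerSeries.map (σ : ℂ →+* ℂ) (qHom x)) h1
    simpa [hc', hA', hBσ] using this
  obtain ⟨F, hF, hFB, hFid⟩ := exists_extension (A := (comb (N := N) d' : ℍ → ℂ))
    (B := (comb (N := N) b : ℍ → ℂ)) (comb d').2.2.1 (comb b).2.2.1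
    (fun h => hB0 (Subtype.ext h)) (c := fun i => (c' i : ℍ → ℂ)) (n := n)
    (fun i => (ModularFormClass.holo (c' i)).continuous) (congrArg Subtype.val hc'0)
    (fun τ => by simpa [Finset.sum_apply] using congrFun (congrArg Subtype.val hid') τ)
  have hinv : ∀ γ ∈ Gamma0 N, F ∣[k] γ = F := by
    intro γ hγ
    have : (F ∣[k] γ - F) * (comb (N := N) b : ℍ → ℂ) = 0 := by
      funext τ
      have h1 := hFB (γ • τ)
      rw [comb_apply_smul b hγ, comb_apply_smul d' hγ, zpow_add₀ (denom_ne_zero _ τ),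
        zpow_add₀ (denom_ne_zero _ τ), zpow_zero, one_mul] at h1
      simp only [Pi.mul_apply, Pi.sub_apply, Pi.zero_apply, ModularForm.SL_slash_apply, zpow_neg,
        sub_mul, hFB τ]
      have h2 := denom_ne_zero (γ : GL (Fin 2) ℝ) τ
      field_simp
      have h3 : F (γ • τ) * (comb (N := N) b : ℍ → ℂ) τ =
          denom γ τ ^ k * (comb (N := N) d' : ℍ → ℂ) τ := by
        apply mul_left_cancel₀ (zpow_ne_zero (12 * ((n - 1 : ℕ) : ℤ)) h2)
        linear_combination h1
      linear_combination h3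
    rcases (UpperHalfPlane.mul_eq_zero_iff ((hF.slash _ _).sub hF) (comb b).2.2.1).1 this with h | h
    · exact sub_eq_zero.1 h
    · exact absurd (Subtype.ext h) hB0
  have hzero : ∀ a : SL(2, ℤ), IsZeroAtImInfty (F ∣[k] a) := by
    intro a
    have hroot : ∀ τ, ∑ i ∈ Finset.range (n + 1), c' i τ * (F ∣[k] a) τ ^ (n - i) = 0 := by
      intro τ
      have hJ := denom_ne_zero (a : GL (Fin 2) ℝ) τ
      have h := hFid (a • τ)
      have : ∑ i ∈ Finset.range (n + 1), c' i (a • τ) * F (a • τ) ^ (n - i) =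
          denom a τ ^ (k * n) *
            ∑ i ∈ Finset.range (n + 1), c' i τ * (F ∣[k] a) τ ^ (n - i) := by
        rw [Finset.mul_sum]
        refine Finset.sum_congr rfl fun i hi => ?_
        have hi' : i ≤ n := by have := Finset.mem_range.1 hi; omega
        rw [levelOne_apply_smul, (slash_eq_iff_apply_smul a F _).1 rfl τ, mul_pow, ← zpow_natCast,
          ← zpow_mul, show k * (n : ℤ) = k * i + k * ((n - i : ℕ) : ℤ) by
            rw [Nat.cast_sub hi']; ring, zpow_add₀ hJ]
        ring
      rw [this] at h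
      exact (mul_eq_zero.1 h).resolve_left (zpow_ne_zero _ hJ)
    rw [IsZeroAtImInfty, ZeroAtFilter, Metric.tendsto_nhds]
    intro ε hε
    have hsum : Tendsto (fun τ => ∑ i ∈ Finset.range n, ‖c' (i + 1) τ‖ / ε ^ (i + 1)) atImInfty
        (𝓝 (∑ i ∈ Finset.range n, ‖(0 : ℂ)‖ / ε ^ (i + 1))) :=
      tendsto_finsetSum _ fun i _ => (hc'z i).norm.div_const _
    simp only [norm_zero, zero_div, Finset.sum_const_zero] at hsum
    filter_upwards [hsum.eventually (Iio_mem_nhds one_pos)] with τ hτ
    rw [dist_zero_right]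
    exact norm_lt_of_monic_eq_zero (c := fun i => c' i τ) hε
      (by simpa using congrFun (congrArg Subtype.val hc'0) τ) (hroot τ) hτ
  let g : CuspForm (Gamma0 N) k :=
    { toFun := F
      slash_action_eq' := by rintro _ ⟨γ, hγ, rfl⟩; exact hinv γ hγ
      holo' := hF
      zero_at_cusps' := fun {x} hx => by
        rw [OnePoint.isZeroAt_iff_forall_SL2Z ((Subgroup.IsArithmetic.isCusp_iff_isCusp_SL2Z _).1 hx)]
        intro a _
        exact hzero a }
  refine ⟨g, ?_⟩
  have hgB : qC g * comb (N := N) b = comb (N := N) d' := by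
    apply Subtype.ext
    funext τ
    exact hFB τ
  have h := congrArg qHom hgB
  rw [map_mul, hA', ← hfB, map_mul, map_mul, hBσ] at h
  exact mul_right_cancel₀ (fun h0 => hB0 (qHom_injective (h0.trans (map_zero qHom).symm))) h

/-- rational cusp forms have bounded denominators -/
theorem hasDen_cuspForm (f : CuspForm (Gamma0 N) k) (hf : qHom (qC f) ∈ ratSeries) :
    HasDen (qHom (qC f)) := by
  obtain ⟨c, d, b, hc0, -, hB0, hbr, hfB, hid⟩ := exists_data f
  set n := Fintype.card (Cosets N)
  have hu : qHom (qU N) ∈ intSeries := by simpa [qHom_apply] using qExpansion_uN_mem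
  have hB : qHom (comb (N := N) b) ∈ ratSeries := by
    rw [qHom_comb]
    exact ratSeries.sum_mem fun i hi => ratSeries.mul_mem (hbr i hi)
      (ratSeries.pow_mem (intSeries_le_ratSeries hu) _)
  refine hasDen_of_integral (c := fun i => seriesProj (qHom (qL (c i)))) (n := n)
    (B := qHom (comb (N := N) b)) (A := seriesProj (qHom (comb (N := N) d))) hf ?_ ?_ ?_ ?_ ?_ ?_ ?_
  · exact fun h0 => hB0 (qHom_injective (h0.trans (map_zero qHom).symm))
  · show seriesProj (qHom (qL (c 0))) = 1
    rw [hc0, map_one, seriesProj_eq_self ratSeries.one_mem]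
  · exact fun i _ => by simpa [qHom_apply] using hasDen_seriesProj (c i)
  · rw [qHom_comb]
    refine HasDen.sum _ fun i hi => HasDen.mul_int ?_ (intSeries.pow_mem hu _)
    rw [← seriesProj_eq_self (hbr i hi)]
    simpa [qHom_apply] using hasDen_seriesProj (b i)
  · rw [qHom_comb, map_sum]
    refine HasDen.sum _ fun i _ => ?_
    rw [seriesProj_mul_of_rat _ (ratSeries.pow_mem (intSeries_le_ratSeries hu) _)]
    exact HasDen.mul_int (by simpa [qHom_apply] using hasDen_seriesProj (d i))
      (intSeries.pow_mem hu _)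
  · rw [← hfB, map_mul, seriesProj_eq_self (ratSeries.mul_mem hf hB)]
  · have h := congrArg (fun x => seriesProj (qHom x)) hid
    simp only [map_zero, map_sum, map_mul, map_pow] at h
    rw [← h]
    exact Finset.sum_congr rfl fun i _ =>
      (seriesProj_mul_of_rat _ (ratSeries.pow_mem hf _)).symm

end FLTAgent.IntegralStructure
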