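import Fermat.Prelude.Def_CuspForm_IntegralStructure
import Fermat.Prelude.Thm_ModularForm_sturm_bound_Gamma0
import Fermat.Agent.IntegralStructure.ConjForm

set_option autoImplicit false
noncomputable section
namespace FLTAgent.IntegralStructure
open UpperHalfPlane ModularForm MatrixGroups CongruenceSubgroup

variable (N : ℕ) [NeZero N] (k : ℤ)

/-- number of coefficients determining a form -/
def coeffBound : ℕ := (k * (Gamma0 N).index).toNat / 12

/-- first coefficients of a cusp form -/
def coeffMap : CuspForm (Gamma0 N) k →ₗ[ℂ] (Fin (coeffBound N k + 1) → ℂ) where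
  toFun f i := (qHom (qC f)).coeff i
  map_add' f g := by
    have : qC (f + g) = qC f + qC g := Subtype.ext rfl
    funext i; simp [this]
  map_smul' a f := by
    have : qC (a • f) = a • qC f := Subtype.ext rfl
    funext i; simp [this]

theorem coeffMap_injective : Function.Injective (coeffMap N k) := by
  refine (injective_iff_map_eq_zero _).2 fun f hf => ?_
  have h : (ModularFormClass.modularForm f : ModularForm (Gamma0 N) k) = 0 := by
    refine ModularForm.sturm_bound_Gamma0 N _ fun n hn => ?_
    have := congrFun hf ⟨n, Nat.lt_succ_of_le hn⟩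
    simpa [coeffMap, qHom_apply] using this
  refine DFunLike.coe_injective ?_
  simpa using congrArg (fun F : ModularForm (Gamma0 N) k => (⇑F : ℍ → ℂ)) h

theorem exists_conjForm_qCoeff {N : ℕ} [NeZero N] {k : ℤ} (σ : ℂ ≃+* ℂ)
    (f : CuspForm (Gamma0 N) k) : ∃ g : CuspForm (Gamma0 N) k,
      ∀ n, ModularFormClass.qCoeff g n = σ (ModularFormClass.qCoeff f n) := by
  obtain ⟨g, hg⟩ := exists_conjForm σ f
  refine ⟨g, fun n => ?_⟩
  simpa [qHom_apply, ModularFormClass.qCoeff] using congrArg (fun p => PowerSeries.coeff n p) hg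

/-- every space of cusp forms on `Γ₀(N)` has an integral structure -/
theorem hasIntegralStructure : CuspForm.HasIntegralStructure N k := by
  refine eq_top_iff.2 fun f _ => ?_
  set L := Submodule.span ℂ ((CuspForm.intLattice N k :
    Submodule ℤ (CuspForm (Gamma0 N) k)) : Set (CuspForm (Gamma0 N) k))
  let W := LinearMap.range (coeffMap N k)
  have hW : ∀ σ : ℂ ≃+* ℂ, ∀ w ∈ W, (fun i => σ (w i)) ∈ W := by
    rintro σ _ ⟨g, rfl⟩
    obtain ⟨g', hg'⟩ := exists_conjForm σ g
    exact ⟨g', funext fun i => by simp [coeffMap, hg']⟩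
  have hle : W ≤ L.map (coeffMap N k) := by
    rw [← span_rational_of_conj_stable W hW, Submodule.span_le]
    rintro w ⟨⟨g, rfl⟩, hrat⟩
    have hr : qHom (qC g) ∈ ratSeries := by
      refine mem_ratSeries_of_fixed fun σ => ?_
      obtain ⟨g', hg'⟩ := exists_conjForm σ g
      have : g' = g := by
        refine coeffMap_injective N k (funext fun i => ?_)
        obtain ⟨r, hr⟩ := hrat i
        simp only [coeffMap, LinearMap.coe_mk, AddHom.coe_mk] at hr
        simp [coeffMap, hg', ← hr]
      rw [← hg', this]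
    obtain ⟨D, hD, hint⟩ := hasDen_cuspForm g hr
    refine ⟨g, ?_, rfl⟩
    have hDC : (D : ℂ) ≠ 0 := by exact_mod_cast hD.ne'
    have hmem : (D : ℂ) • g ∈ CuspForm.intLattice N k := by
      refine Submodule.subset_span fun n => ?_
      obtain ⟨m, hm⟩ := mem_intSeries.1 hint n
      refine ⟨m, ?_⟩
      have : qC ((D : ℂ) • g) = (D : ℂ) • qC g := Subtype.ext rfl
      rw [← hm, show ModularFormClass.qCoeff ((D : ℂ) • g : CuspForm (Gamma0 N) k) n =
        (qHom (qC ((D : ℂ) • g))).coeff n from rfl, this, map_smul, ← map_natCast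
          (PowerSeries.C (R := ℂ)), PowerSeries.coeff_C_mul]
      simp
    have h2 : (D : ℂ)⁻¹ • ((D : ℂ) • g) ∈ L := L.smul_mem _ (Submodule.subset_span hmem)
    rwa [inv_smul_smul₀ hDC] at h2
  obtain ⟨g, hg, hgf⟩ := hle ⟨f, rfl⟩
  exact coeffMap_injective N k hgf ▸ hg

end FLTAgent.IntegralStructure
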