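import Fermat.Prelude.Def_CuspForm_HeckeAlgebra
import Fermat.Prelude.Thm_CuspForm_intLattice_fg
import Fermat.Prelude.Thm_CuspForm_mem_intLattice_of_mem_heckeAlgebra
import Fermat.Agent.IntegralStructure.Main

set_option autoImplicit false
noncomputable section
namespace FLTAgent.IntegralStructure
open UpperHalfPlane CongruenceSubgroup

variable (N : ℕ) [NeZero N]

theorem cuspForm_eq_zero_of_nonpos {k : ℤ} (hk : k ≤ 0) (f : CuspForm (Gamma0 N) k) : f = 0 := by
  refine DFunLike.coe_injective ?_
  rcases hk.lt_or_eq with hk | rfl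
  · have := ModularForm.isZero_of_neg_weight hk
      (ModularFormClass.modularForm f : ModularForm (Gamma0 N) k)
    simpa using congrArg (fun F : ModularForm (Gamma0 N) k => (⇑F : ℍ → ℂ)) this
  · obtain ⟨c, hc⟩ := ModularForm.eq_const_of_weight_zero
      (ModularFormClass.modularForm f : ModularForm (Gamma0 N) 0)
    have hc' : (f : ℍ → ℂ) = Function.const ℍ c := by simpa using hc
    have h0 := cusp_slash_zero f 1
    rw [SlashAction.slash_one, hc', IsZeroAtImInfty, Filter.ZeroAtFilter] at h0
    have hc0 : c = 0 := tendsto_nhds_unique tendsto_const_nhds h0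
    rw [hc', hc0]
    rfl

/-- the Hecke algebra acting on the integral lattice -/
def latticeAction {k : ℤ} (hk : 1 ≤ k) (S : Set ℕ) :
    CuspForm.heckeAlgebra N k S →ₗ[ℤ] Module.End ℤ (CuspForm.intLattice N k) where
  toFun t :=
    { toFun := fun f => ⟨(t : Module.End ℂ _) f,
        CuspForm.mem_intLattice_of_mem_heckeAlgebra hk t.2 f.2⟩
      map_add' := fun f g => Subtype.ext (by simp only [Submodule.coe_add, map_add])
      map_smul' := fun a f => Subtype.ext (by
        simp only [RingHom.id_apply, SetLike.val_smul, map_zsmul]) }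
  map_add' t u := rfl
  map_smul' a t := rfl

theorem latticeAction_injective {k : ℤ} (hk : 1 ≤ k) (S : Set ℕ) :
    Function.Injective (latticeAction N hk S) := by
  intro t u h
  apply Subtype.ext
  refine LinearMap.ext_on (hasIntegralStructure N k) fun f hf => ?_
  have := congrArg Subtype.val (LinearMap.congr_fun h ⟨f, hf⟩)
  simpa [latticeAction] using this

theorem moduleFinite_heckeAlgebra (k : ℤ) (S : Set ℕ) :
    Module.Finite ℤ (CuspForm.heckeAlgebra N k S) := by
  rcases le_or_gt k 0 with hk | hk
  · have : Subsingleton (CuspForm.heckeAlgebra N k S) := by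
      refine ⟨fun t u => Subtype.ext (LinearMap.ext fun f => ?_)⟩
      rw [cuspForm_eq_zero_of_nonpos N hk f, map_zero, map_zero]
    exact Module.Finite.of_finite
  · have hk1 : 1 ≤ k := hk
    have : Module.Finite ℤ (CuspForm.intLattice N k) :=
      Module.Finite.iff_fg.2 (CuspForm.intLattice_fg N k)
    exact Module.Finite.of_injective _ (latticeAction_injective N hk1 S)

end FLTAgent.IntegralStructure
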