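import Mathlib.LinearAlgebra.Dimension.RankNullity
import Mathlib.LinearAlgebra.FreeModule.PID
import Fermat.Agent.IntegralStructure.HeckeFinite
import Fermat.Agent.Quick.HeckeEigenform

/-!
# q-expansion duality between the Hecke algebra and integral cusp forms
-/

set_option autoImplicit false
noncomputable section
namespace FLTAgent.IntegralStructure
open CongruenceSubgroup ModularFormClass CuspForm
open FLTAgent.Quick (qCoeffLin qCoeff_add' qCoeff_zsmul' qCoeff_smul' qCoeff_sub'
  eq_of_qCoeff_eq qCoeff_zero_index mem_intLattice_iff qCoeff_heckeTLin qCoeff_heckeULin)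

variable {N : ℕ} [NeZero N] {k : ℤ}

theorem isAddTorsionFree_cuspForm' (N : ℕ) (k : ℤ) : IsAddTorsionFree (CuspForm (Gamma0 N) k) :=
  .of_isTorsionFree ℂ _

theorem moduleFree_intLattice (N : ℕ) [NeZero N] (k : ℤ) :
    Module.Free ℤ (CuspForm.intLattice N k) := by
  have := isAddTorsionFree_cuspForm' N k
  have : Module.Finite ℤ (CuspForm.intLattice N k) :=
    Module.Finite.iff_fg.2 (CuspForm.intLattice_fg N k)
  exact Module.free_of_finite_type_torsion_free'

theorem moduleFinite_intLattice (N : ℕ) [NeZero N] (k : ℤ) :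
    Module.Finite ℤ (CuspForm.intLattice N k) :=
  Module.Finite.iff_fg.2 (CuspForm.intLattice_fg N k)

theorem moduleFree_heckeAlgebra (N : ℕ) [NeZero N] (k : ℤ) (S : Set ℕ) :
    Module.Free ℤ (CuspForm.heckeAlgebra N k S) := by
  have := moduleFinite_heckeAlgebra N k S
  exact Module.free_of_finite_type_torsion_free'

/-- a Hecke algebra element as an operator -/
abbrev heckeOp {S : Set ℕ} (t : heckeAlgebra N k S) : Module.End ℂ (CuspForm (Gamma0 N) k) := t

theorem heckeOp_mul_apply {S : Set ℕ} (s t : heckeAlgebra N k S) (f : CuspForm (Gamma0 N) k) :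
    heckeOp (s * t) f = heckeOp s (heckeOp t f) := rfl

theorem heckeOp_add_apply {S : Set ℕ} (s t : heckeAlgebra N k S) (f : CuspForm (Gamma0 N) k) :
    heckeOp (s + t) f = heckeOp s f + heckeOp t f := rfl

theorem heckeOp_sub_apply {S : Set ℕ} (s t : heckeAlgebra N k S) (f : CuspForm (Gamma0 N) k) :
    heckeOp (s - t) f = heckeOp s f - heckeOp t f := rfl

theorem heckeOp_zsmul_apply {S : Set ℕ} (a : ℤ) (t : heckeAlgebra N k S)
    (f : CuspForm (Gamma0 N) k) : heckeOp (a • t) f = a • heckeOp t f := rfl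

theorem exists_heckeTn (hk : 1 ≤ k) (n : ℕ) :
    ∃ t : heckeAlgebra N k ∅, ∀ f : CuspForm (Gamma0 N) k,
      qCoeff (heckeOp t f) 1 = qCoeff f n := by
  induction n using Nat.strong_induction_on with
  | _ n ih =>
    rcases eq_or_ne n 0 with rfl | hn0
    · refine ⟨0, fun f => ?_⟩
      rw [qCoeff_zero_index]
      simpa using (qCoeffLin N k 1).map_zero
    rcases eq_or_ne n 1 with rfl | hn1
    · exact ⟨1, fun f => rfl⟩
    have hp := Nat.minFac_prime hn1
    obtain ⟨m, hm⟩ := Nat.minFac_dvd n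
    generalize n.minFac = p at hp hm
    subst hm
    have hm0 : 0 < m := Nat.pos_of_ne_zero (by rintro rfl; simp at hn0)
    obtain ⟨a, ha⟩ := ih m (lt_mul_of_one_lt_left hm0 hp.one_lt)
    by_cases hpN : p ∣ N
    · refine ⟨a * heckeAlgebra.U hp hpN (Set.notMem_empty p), fun f => ?_⟩
      show qCoeff ((heckeOp (a)) (heckeULin k hpN f)) 1 = _
      rw [ha, qCoeff_heckeULin hp, mul_comm]
    · by_cases hpm : p ∣ m
      · obtain ⟨b, hb⟩ := ih (m / p) ((Nat.div_le_self _ _).trans_lt (lt_mul_of_one_lt_left hm0 hp.one_lt))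
        refine ⟨a * heckeAlgebra.T hp hpN (Set.notMem_empty p) - ((p : ℤ) ^ (k - 1).toNat) • b,
          fun f => ?_⟩
        rw [heckeOp_sub_apply, heckeOp_mul_apply, heckeOp_zsmul_apply, qCoeff_sub', qCoeff_zsmul', ha, hb,
          show heckeOp (heckeAlgebra.T hp hpN (Set.notMem_empty p)) f = heckeTLin k hp hpN f from rfl,
          qCoeff_heckeTLin, if_pos hpm, mul_comm m p]
        have : (((p : ℤ) ^ (k - 1).toNat : ℤ) : ℂ) = (p : ℂ) ^ (k - 1) := by
          conv_rhs => rw [← Int.toNat_of_nonneg (show 0 ≤ k - 1 by omega), zpow_natCast]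
          simp
        rw [this]; ring
      · refine ⟨a * heckeAlgebra.T hp hpN (Set.notMem_empty p), fun f => ?_⟩
        show qCoeff ((heckeOp (a)) (heckeTLin k hp hpN f)) 1 = _
        rw [ha, qCoeff_heckeTLin, if_neg hpm, add_zero, mul_comm]

/-- the Hecke operator `T_n`, characterised by `a₁(T_n f) = a_n(f)` -/
def heckeTn (hk : 1 ≤ k) (n : ℕ) : heckeAlgebra N k ∅ := (exists_heckeTn hk n).choose

theorem qCoeff_one_heckeTn (hk : 1 ≤ k) (n : ℕ) (f : CuspForm (Gamma0 N) k) :
    qCoeff (heckeOp (heckeTn hk n) f) 1 = qCoeff f n :=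
  (exists_heckeTn hk n).choose_spec f

theorem heckeAlgebra_apply_comm (s t : heckeAlgebra N k ∅) (f : CuspForm (Gamma0 N) k) :
    (s : Module.End ℂ _) ((heckeOp (t)) f) = (t : Module.End ℂ _) ((heckeOp (s)) f) :=
  congrArg (fun x : heckeAlgebra N k ∅ => heckeOp x f) (mul_comm s t)

theorem qCoeff_apply_eq_one (hk : 1 ≤ k) (n : ℕ) (t : heckeAlgebra N k ∅)
    (f : CuspForm (Gamma0 N) k) :
    qCoeff ((heckeOp (t)) f) n =
      qCoeff (heckeOp (t * heckeTn hk n) f) 1 := by
  rw [← qCoeff_one_heckeTn hk n, heckeAlgebra_apply_comm]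
  rfl

theorem qCoeff_pairing_mem (hk : 1 ≤ k) (t : heckeAlgebra N k ∅) (f : CuspForm.intLattice N k) :
    ∃ m : ℤ, qCoeff ((heckeOp (t)) (f : CuspForm (Gamma0 N) k)) 1 = m :=
  mem_intLattice_iff.1 (CuspForm.mem_intLattice_of_mem_heckeAlgebra hk t.2 f.2) 1

/-- the pairing `(f, t) ↦ a₁(t f)` -/
def qPairing (hk : 1 ≤ k) :
    CuspForm.intLattice N k →ₗ[ℤ] Module.Dual ℤ (heckeAlgebra N k ∅) where
  toFun f :=
    { toFun := fun t => (qCoeff_pairing_mem hk t f).choose
      map_add' := fun s t => Int.cast_injective (α := ℂ) (by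
        rw [Int.cast_add, ← (qCoeff_pairing_mem hk (s + t) f).choose_spec,
          ← (qCoeff_pairing_mem hk s f).choose_spec, ← (qCoeff_pairing_mem hk t f).choose_spec,
          heckeOp_add_apply, qCoeff_add'])
      map_smul' := fun a t => Int.cast_injective (α := ℂ) (by
        rw [RingHom.id_apply, smul_eq_mul, Int.cast_mul,
          ← (qCoeff_pairing_mem hk (a • t) f).choose_spec,
          ← (qCoeff_pairing_mem hk t f).choose_spec, heckeOp_zsmul_apply, qCoeff_zsmul']) }
  map_add' f g := LinearMap.ext fun t => Int.cast_injective (α := ℂ) (by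
    simp only [LinearMap.coe_mk, AddHom.coe_mk, LinearMap.add_apply, Int.cast_add]
    rw [← (qCoeff_pairing_mem hk t (f + g)).choose_spec, ← (qCoeff_pairing_mem hk t f).choose_spec,
      ← (qCoeff_pairing_mem hk t g).choose_spec, Submodule.coe_add, map_add, qCoeff_add'])
  map_smul' a f := LinearMap.ext fun t => Int.cast_injective (α := ℂ) (by
    simp only [LinearMap.coe_mk, AddHom.coe_mk, RingHom.id_apply, LinearMap.smul_apply, smul_eq_mul,
      Int.cast_mul]
    rw [← (qCoeff_pairing_mem hk t (a • f)).choose_spec, ← (qCoeff_pairing_mem hk t f).choose_spec,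
      SetLike.val_smul, map_zsmul, qCoeff_zsmul'])

theorem qPairing_spec (hk : 1 ≤ k) (f : CuspForm.intLattice N k) (t : heckeAlgebra N k ∅) :
    ((qPairing hk f t : ℤ) : ℂ) = qCoeff ((heckeOp (t)) (f : CuspForm (Gamma0 N) k)) 1 :=
  (qCoeff_pairing_mem hk t f).choose_spec.symm

theorem qPairing_heckeTn (hk : 1 ≤ k) (f : CuspForm.intLattice N k) (n : ℕ) :
    ((qPairing hk f (heckeTn hk n) : ℤ) : ℂ) = qCoeff (f : CuspForm (Gamma0 N) k) n := by
  rw [qPairing_spec, qCoeff_one_heckeTn]

theorem qPairing_injective (hk : 1 ≤ k) :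
    Function.Injective (qPairing (N := N) hk) := by
  intro f g h
  refine Subtype.ext (eq_of_qCoeff_eq fun n => ?_)
  rw [← qPairing_heckeTn hk f n, ← qPairing_heckeTn hk g n, h]

theorem qPairing_flip_injective (hk : 1 ≤ k) :
    Function.Injective (qPairing (N := N) hk).flip := by
  intro s t h
  refine Subtype.ext (LinearMap.ext_on (hasIntegralStructure N k) fun f hf => ?_)
  refine eq_of_qCoeff_eq fun n => ?_
  rw [qCoeff_apply_eq_one hk n s f, qCoeff_apply_eq_one hk n t f]
  rw [heckeOp_mul_apply, heckeOp_mul_apply]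
  have hf' := CuspForm.mem_intLattice_of_mem_heckeAlgebra hk (heckeTn (N := N) hk n).2 hf
  rw [← qPairing_spec hk ⟨_, hf'⟩ s, ← qPairing_spec hk ⟨_, hf'⟩ t]
  exact congrArg _ (LinearMap.congr_fun h ⟨_, hf'⟩)

theorem finrank_heckeAlgebra_eq (hk : 1 ≤ k) :
    Module.finrank ℤ (heckeAlgebra N k ∅) = Module.finrank ℤ (CuspForm.intLattice N k) := by
  have := moduleFinite_intLattice N k
  have := moduleFree_intLattice N k
  have := moduleFinite_heckeAlgebra N k ∅
  have := moduleFree_heckeAlgebra N k ∅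
  refine le_antisymm ?_ ?_
  · exact (LinearMap.finrank_le_finrank_of_injective (qPairing_flip_injective (N := N) hk)).trans
      (Module.finrank_linearMap_self _ _ _).le
  · exact (LinearMap.finrank_le_finrank_of_injective (qPairing_injective (N := N) hk)).trans
      (Module.finrank_linearMap_self _ _ _).le

/-- `S_k(ℤ) ≃ Hom(T, ℤ)` -/
theorem qPairing_bijective (hk : 1 ≤ k) : Function.Bijective (qPairing (N := N) hk) := by
  have := moduleFinite_intLattice N k
  have := moduleFree_intLattice N k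
  have := moduleFinite_heckeAlgebra N k ∅
  have := moduleFree_heckeAlgebra N k ∅
  refine ⟨qPairing_injective hk, fun φ => ?_⟩
  set R := LinearMap.range (qPairing (N := N) hk)
  have hrank : Module.finrank ℤ (Module.Dual ℤ (heckeAlgebra N k ∅) ⧸ R) = 0 := by
    have h := Submodule.finrank_quotient_add_finrank R
    rw [LinearMap.finrank_range_of_inj (qPairing_injective hk), show Module.finrank ℤ (Module.Dual ℤ (heckeAlgebra N k ∅)) =
      Module.finrank ℤ (heckeAlgebra N k ∅) from Module.finrank_linearMap_self _ _ _,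
      finrank_heckeAlgebra_eq hk] at h
    omega
  rw [Module.finrank_eq_zero_iff] at hrank
  obtain ⟨m, hm, hmφ⟩ := hrank (Submodule.Quotient.mk φ)
  rw [← Submodule.Quotient.mk_smul, Submodule.Quotient.mk_eq_zero] at hmφ
  obtain ⟨g, hg⟩ := hmφ
  have hmC : (m : ℂ) ≠ 0 := by exact_mod_cast hm
  have hmem : (m : ℂ)⁻¹ • (g : CuspForm (Gamma0 N) k) ∈ CuspForm.intLattice N k := by
    refine mem_intLattice_iff.2 fun n => ⟨φ (heckeTn hk n), ?_⟩
    rw [qCoeff_smul', ← qPairing_heckeTn hk g n, hg, LinearMap.smul_apply, smul_eq_mul,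
      Int.cast_mul, inv_mul_cancel_left₀ hmC]
  refine ⟨⟨_, hmem⟩, LinearMap.ext fun t => Int.cast_injective (α := ℂ) ?_⟩
  rw [qPairing_spec, map_smul, qCoeff_smul', ← qPairing_spec hk g t, hg, LinearMap.smul_apply,
    smul_eq_mul, Int.cast_mul, inv_mul_cancel_left₀ hmC]

/-- `T ≃ Hom(S_k(ℤ), ℤ)` -/
theorem qPairing_flip_bijective (hk : 1 ≤ k) :
    Function.Bijective (qPairing (N := N) hk).flip := by
  have := moduleFinite_heckeAlgebra N k ∅
  have := moduleFree_heckeAlgebra N k ∅
  refine ⟨qPairing_flip_injective hk, fun ψ => ?_⟩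
  let e := LinearEquiv.ofBijective _ (qPairing_bijective (N := N) hk)
  obtain ⟨t, ht⟩ := (Module.bijective_dual_eval ℤ (heckeAlgebra N k ∅)).2
    (ψ ∘ₗ e.symm.toLinearMap)
  refine ⟨t, LinearMap.ext fun f => ?_⟩
  have := LinearMap.congr_fun ht (qPairing hk f)
  rw [Module.Dual.eval_apply] at this
  rw [LinearMap.flip_apply, this, LinearMap.comp_apply]
  exact congrArg ψ (e.symm_apply_apply f)

/-- dual bases: a `ℂ`-basis of integral forms and a `ℤ`-basis of `T` -/
theorem exists_dual_bases (hk : 1 ≤ k) :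
    ∃ (d : ℕ) (t : Module.Basis (Fin d) ℤ (heckeAlgebra N k ∅))
      (b : Module.Basis (Fin d) ℂ (CuspForm (Gamma0 N) k)),
      (∀ i, b i ∈ CuspForm.intLattice N k) ∧
      ∀ i j, qCoeff ((heckeOp (t j)) (b i)) 1 = if i = j then 1 else 0 := by
  classical
  have := moduleFinite_heckeAlgebra N k ∅
  have := moduleFree_heckeAlgebra N k ∅
  let t := Module.finBasis ℤ (heckeAlgebra N k ∅)
  let e := LinearEquiv.ofBijective _ (qPairing_bijective (N := N) hk)
  let bL := t.dualBasis.map e.symm
  let v : Fin (Module.finrank ℤ (heckeAlgebra N k ∅)) → CuspForm (Gamma0 N) k := fun i => bL i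
  have hv : ∀ i j, qCoeff ((heckeOp (t j)) (v i)) 1 = if i = j then 1 else 0 := by
    intro i j
    rw [← qPairing_spec hk (bL i) (t j)]
    have : qPairing hk (bL i) = t.dualBasis i := by
      show e (bL i) = t.dualBasis i
      rw [Module.Basis.map_apply, LinearEquiv.apply_symm_apply]
    rw [this, Module.Basis.dualBasis_apply_self]
    by_cases h : i = j
    · rw [if_pos h.symm, if_pos h, Int.cast_one]
    · rw [if_neg (Ne.symm h), if_neg h, Int.cast_zero]
  have hli : LinearIndependent ℂ v := by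
    rw [Fintype.linearIndependent_iff]
    intro c hc j
    have h := congrArg (fun f => qCoeffLin N k 1 ((heckeOp (t j)) f)) hc
    simp only [map_sum, map_smul, map_zero, Quick.qCoeffLin_apply, hv, smul_eq_mul] at h
    simpa using h
  have hspan : ⊤ ≤ Submodule.span ℂ (Set.range v) := by
    rw [← (hasIntegralStructure N k : _ = ⊤), Submodule.span_le]
    intro f hf
    have h := Submodule.apply_mem_span_image_of_mem_span (CuspForm.intLattice N k).subtype
      (bL.mem_span ⟨f, hf⟩)
    rw [← Set.range_comp] at h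
    exact Submodule.span_subset_span ℤ ℂ _ h
  exact ⟨_, t, Module.Basis.mk hli hspan, fun i => by simp [v, Module.Basis.mk_apply, (bL i).2],
    fun i j => by rw [Module.Basis.mk_apply]; exact hv i j⟩

theorem finrank_heckeAlgebra (hk : 1 ≤ k) :
    Module.finrank ℤ (heckeAlgebra N k ∅) = Module.finrank ℂ (CuspForm (Gamma0 N) k) := by
  obtain ⟨d, t, b, -⟩ := exists_dual_bases (N := N) hk
  rw [Module.finrank_eq_card_basis t, Module.finrank_eq_card_basis b]

/-- `T ⊗ ℂ` acts faithfully on `S_k` -/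
theorem linearIndependent_heckeAlgebra (hk : 1 ≤ k) {ι : Type*}
    (t : Module.Basis ι ℤ (heckeAlgebra N k ∅)) :
    LinearIndependent ℂ fun i => heckeOp (t i) := by
  classical
  rw [linearIndependent_iff']
  intro s c hc i hi
  let ψ : heckeAlgebra N k ∅ →ₗ[ℤ] ℤ := t.coord i
  obtain ⟨g, hg⟩ := (qPairing_bijective (N := N) hk).2 ψ
  have h := congrArg (fun F : Module.End ℂ _ => qCoeffLin N k 1 (F (g : CuspForm (Gamma0 N) k))) hc
  simp only [LinearMap.coe_sum, Finset.sum_apply, LinearMap.smul_apply, map_sum, map_smul,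
    LinearMap.zero_apply, map_zero, Quick.qCoeffLin_apply, ← qPairing_spec hk, hg, ψ,
    Module.Basis.coord_apply, Module.Basis.repr_self, Finsupp.single_apply, smul_eq_mul] at h
  simpa [hi] using h

/-- `S_k = Hom(T, ℂ)` -/
theorem existsUnique_form (hk : 1 ≤ k) (φ : heckeAlgebra N k ∅ →+ ℂ) :
    ∃! f : CuspForm (Gamma0 N) k,
      ∀ s : heckeAlgebra N k ∅, qCoeff ((heckeOp (s)) f) 1 = φ s := by
  classical
  obtain ⟨d, t, b, -, hdual⟩ := exists_dual_bases (N := N) hk
  have key : ∀ (c : Fin d → ℂ) (j : Fin d),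
      qCoeffLin N k 1 (heckeOp (t j) (∑ i, c i • b i)) = c j := by
    intro c j
    rw [map_sum, map_sum, Finset.sum_eq_single j]
    · rw [map_smul, map_smul, Quick.qCoeffLin_apply, hdual, if_pos rfl, smul_eq_mul, mul_one]
    · intro i _ hij
      rw [map_smul, map_smul, Quick.qCoeffLin_apply, hdual, if_neg hij, smul_zero]
    · simp
  refine ⟨∑ i, φ (t i) • b i, fun s => ?_, fun g hg => ?_⟩
  · let L : heckeAlgebra N k ∅ →ₗ[ℤ] ℂ :=
      AddMonoidHom.toIntLinearMap
        { toFun := fun s => qCoeff ((heckeOp (s)) (∑ i, φ (t i) • b i)) 1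
          map_zero' := by simpa using (qCoeffLin N k 1).map_zero
          map_add' := fun x y => by rw [heckeOp_add_apply, qCoeff_add'] }
    have : L = φ.toIntLinearMap := t.ext fun j => key (fun i => φ (t i)) j
    exact LinearMap.congr_fun this s
  · refine b.ext_elem fun j => ?_
    have h1 := key (fun i => φ (t i)) j
    have h2 := key (fun i => b.repr g i) j
    rw [b.sum_repr, Quick.qCoeffLin_apply, hg] at h2
    rw [← h2, Module.Basis.repr_sum_self]

/-- an eigencharacter is realised by a unique form with `a₁ = 1` -/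
theorem exists_eigenform_of_char (hk : 1 ≤ k) (χ : heckeAlgebra N k ∅ →+* ℂ) :
    ∃ f : CuspForm (Gamma0 N) k, qCoeff f 1 = 1 ∧ (∀ n, qCoeff f n = χ (heckeTn hk n)) ∧
      ∀ t : heckeAlgebra N k ∅, heckeOp t f = χ t • f := by
  obtain ⟨f, hf, -⟩ := existsUnique_form hk χ.toAddMonoidHom
  refine ⟨f, by simpa using hf 1, fun n => ?_, fun t => eq_of_qCoeff_eq fun n => ?_⟩
  · rw [← qCoeff_one_heckeTn hk n f]
    exact hf _
  · rw [qCoeff_apply_eq_one hk n t f, qCoeff_smul', hf, ← qCoeff_one_heckeTn hk n f, hf]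
    exact map_mul χ t _

/-- weight two: an eigencharacter of the full Hecke algebra gives a normalised eigenform -/
theorem exists_normalized_of_char (χ : heckeAlgebra N 2 ∅ →+* ℂ) :
    ∃ f : CuspForm (Gamma0 N) 2, f.IsNormalizedEigenform ∧
      (∀ n, qCoeff f n = χ (heckeTn one_le_two n)) ∧ ∀ t : heckeAlgebra N 2 ∅, heckeOp t f = χ t • f := by
  obtain ⟨f, hf1, hfn, hft⟩ := exists_eigenform_of_char one_le_two χ
  have hv : f ≠ 0 := fun h => by
    have := (qCoeffLin N 2 1).map_zero
    rw [← h, Quick.qCoeffLin_apply, hf1] at this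
    exact one_ne_zero this
  obtain ⟨g, hg, ⟨c, hc⟩, -⟩ := Quick.exists_normalized_of_eigenCharacter χ f hv hft
  have hc1 : c = 1 := by
    have := hg.qCoeff_one
    rwa [hc, qCoeff_smul', hf1, mul_one] at this
  rw [hc, hc1, one_smul] at hg
  exact ⟨f, hg, hfn, hft⟩

end FLTAgent.IntegralStructure

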